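/-
Points of a short Weierstrass curve `y² = x³ + A x + B`.
-/
import Mathlib.AlgebraicGeometry.EllipticCurve.Affine.Point
import Mathlib.FieldTheory.IsAlgClosed.Basic
import Mathlib.Tactic.LinearCombination

set_option autoImplicit false

open Polynomial WeierstrassCurve WeierstrassCurve.Affine WeierstrassCurve.Affine.Point

namespace Fermat.Agent.Isogeny.Velu

variable {K : Type*} [Field K]

/-- The short Weierstrass curve with coefficients `A`, `B`. -/
abbrev shortW (A B : K) : WeierstrassCurve K := ⟨0, 0, 0, A, B⟩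

/-- The cubic `X³ + A X + B`. -/
noncomputable def cubic (A B : K) : K[X] := X ^ 3 + C A * X + C B

theorem cubic_eval (A B x : K) : (cubic A B).eval x = x ^ 3 + A * x + B := by
  simp [cubic]

theorem cubic_monic (A B : K) : (cubic A B).Monic := by
  unfold cubic; monicity!

theorem cubic_natDegree (A B : K) : (cubic A B).natDegree = 3 := by
  unfold cubic; compute_degree!

theorem shortW_Δ (A B : K) : (shortW A B).Δ = -16 * (4 * A ^ 3 + 27 * B ^ 2) := by
  simp [WeierstrassCurve.Δ, WeierstrassCurve.b₂, WeierstrassCurve.b₄, WeierstrassCurve.b₆,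
    WeierstrassCurve.b₈]
  ring

theorem negY_short (A B x y : K) : (shortW A B).toAffine.negY x y = -y := by
  simp [Affine.negY]

theorem equation_short_iff (A B x y : K) :
    (shortW A B).toAffine.Equation x y ↔ y ^ 2 = x ^ 3 + A * x + B := by
  rw [equation_iff]; simp

theorem nonsingular_short {A B : K} (hΔ : (shortW A B).Δ ≠ 0) {x y : K}
    (h : y ^ 2 = x ^ 3 + A * x + B) : (shortW A B).toAffine.Nonsingular x y :=
  (equation_iff_nonsingular_of_Δ_ne_zero (W := (shortW A B).toAffine) hΔ).mp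
    ((equation_short_iff A B x y).mpr h)

theorem cubic_three_roots [IsAlgClosed K] [NeZero (2 : K)] {A B : K}
    (hΔ : (shortW A B).Δ ≠ 0) :
    ∃ r₁ r₂ r₃ : K, r₁ ≠ r₂ ∧ r₁ ≠ r₃ ∧ r₂ ≠ r₃ ∧ r₁ ^ 3 + A * r₁ + B = 0 ∧
      r₂ ^ 3 + A * r₂ + B = 0 ∧ r₃ ^ 3 + A * r₃ + B = 0 := by
  have hsing : ∀ r : K, r ^ 3 + A * r + B = 0 → 3 * r ^ 2 + A ≠ 0 := by
    intro r hr hd
    apply hΔ
    rw [shortW_Δ]
    have hA : A = -3 * r ^ 2 := by linear_combination hd
    have hB : B = 2 * r ^ 3 := by linear_combination hr - r * hA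
    rw [hA, hB]; ring
  obtain ⟨r₁, h₁⟩ := IsAlgClosed.exists_root (k := K) (cubic A B)
    (by rw [degree_eq_natDegree (cubic_monic A B).ne_zero, cubic_natDegree]; norm_num)
  rw [IsRoot, cubic_eval] at h₁
  obtain ⟨d, hd⟩ := IsAlgClosed.exists_eq_mul_self (-3 * r₁ ^ 2 - 4 * A)
  have h2 : (2 : K) ≠ 0 := two_ne_zero
  obtain ⟨r₂, hr₂⟩ : ∃ r₂, 2 * r₂ = -r₁ + d := ⟨(-r₁ + d) / 2, by field_simp⟩
  set r₃ := -r₁ - r₂ with hr₃
  have hprod : r₂ * r₃ = r₁ ^ 2 + A := by
    have : (2 * r₂) * (2 * r₃) = 4 * (r₁ ^ 2 + A) := by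
      rw [hr₃]
      linear_combination (-(2 * r₂) - r₁ - d) * hr₂ + hd
    refine mul_left_cancel₀ (mul_ne_zero h2 h2) ?_
    linear_combination this
  have hfac : ∀ x, x ^ 3 + A * x + B = (x - r₁) * ((x - r₂) * (x - r₃)) := by
    intro x
    rw [hr₃] at hprod ⊢
    linear_combination h₁ - (x - r₁) * hprod
  have h₂ : r₂ ^ 3 + A * r₂ + B = 0 := by rw [hfac]; simp
  have h₃ : r₃ ^ 3 + A * r₃ + B = 0 := by rw [hfac]; simp
  have hder : ∀ x, 3 * x ^ 2 + A
      = (x - r₂) * (x - r₃) + (x - r₁) * (x - r₃) + (x - r₁) * (x - r₂) := by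
    intro x
    rw [hr₃] at hprod ⊢
    linear_combination (-1 : K) * hprod
  refine ⟨r₁, r₂, r₃, ?_, ?_, ?_, h₁, h₂, h₃⟩
  · intro h; refine hsing r₁ h₁ ?_; rw [hder, h]; ring
  · intro h; refine hsing r₁ h₁ ?_; rw [hder, h]; ring
  · intro h; refine hsing r₂ h₂ ?_; rw [hder, h]; ring

variable {A B : K}

/-- The `x`-coordinate (`0` at infinity). -/
def xc : (shortW A B).toAffine.Point → K
  | 0 => 0
  | .some x _ _ => x

/-- The `y`-coordinate (`0` at infinity). -/
def yc : (shortW A B).toAffine.Point → K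
  | 0 => 0
  | .some _ y _ => y

@[simp] theorem xc_zero : xc (0 : (shortW A B).toAffine.Point) = 0 := rfl

@[simp] theorem yc_zero : yc (0 : (shortW A B).toAffine.Point) = 0 := rfl

theorem point_eq {P Q : (shortW A B).toAffine.Point} (hP : P ≠ 0) (hQ : Q ≠ 0)
    (hx : xc P = xc Q) (hy : yc P = yc Q) : P = Q := by
  rcases P with _ | ⟨x, y, h⟩
  · exact absurd rfl hP
  rcases Q with _ | ⟨x', y', h'⟩
  · exact absurd rfl hQ
  obtain rfl : x = x' := hx
  obtain rfl : y = y' := hy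
  rfl

theorem curve_eq {P : (shortW A B).toAffine.Point} (hP : P ≠ 0) :
    yc P ^ 2 = xc P ^ 3 + A * xc P + B := by
  rcases P with _ | ⟨x, y, h⟩
  · exact absurd rfl hP
  exact (equation_short_iff A B x y).mp h.1

@[simp] theorem xc_neg (P : (shortW A B).toAffine.Point) : xc (-P) = xc P := by
  rcases P with _ | ⟨x, y, h⟩ <;> rfl

@[simp] theorem yc_neg (P : (shortW A B).toAffine.Point) : yc (-P) = -yc P := by
  rcases P with _ | ⟨x, y, h⟩
  · show (0 : K) = -0
    rw [_root_.neg_zero]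
  · exact negY_short A B x y

variable [DecidableEq K]

theorem eq_or_eq_neg_of_xc_eq {P Q : (shortW A B).toAffine.Point} (hP : P ≠ 0) (hQ : Q ≠ 0)
    (h : xc P = xc Q) : P = Q ∨ P = -Q := by
  have : (yc P - yc Q) * (yc P + yc Q) = 0 := by
    have h1 := curve_eq hP
    have h2 := curve_eq hQ
    rw [h] at h1
    linear_combination h1 - h2
  rcases mul_eq_zero.mp this with h' | h'
  · exact Or.inl (point_eq hP hQ h (sub_eq_zero.mp h'))
  · refine Or.inr (point_eq hP (neg_ne_zero.mpr hQ) (by simpa using h) ?_)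
    rw [yc_neg]; linear_combination h'

theorem exists_point [IsAlgClosed K] (hΔ : (shortW A B).Δ ≠ 0) (x : K) :
    ∃ P : (shortW A B).toAffine.Point, P ≠ 0 ∧ xc P = x := by
  obtain ⟨y, hy⟩ := IsAlgClosed.exists_eq_mul_self (x ^ 3 + A * x + B)
  exact ⟨.some x y (nonsingular_short hΔ (by rw [hy]; ring)), fun h => (nomatch h), rfl⟩

theorem exists_point_of_eq (hΔ : (shortW A B).Δ ≠ 0) {x y : K}
    (h : y ^ 2 = x ^ 3 + A * x + B) :
    ∃ P : (shortW A B).toAffine.Point, P ≠ 0 ∧ xc P = x ∧ yc P = y :=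
  ⟨.some x y (nonsingular_short hΔ h), fun h => (nomatch h), rfl, rfl⟩

/-- Chord addition for points with distinct abscissae. -/
theorem add_coords {P Q : (shortW A B).toAffine.Point} (hP : P ≠ 0) (hQ : Q ≠ 0)
    (hx : xc P ≠ xc Q) :
    P + Q ≠ 0 ∧
    xc (P + Q) = ((yc P - yc Q) / (xc P - xc Q)) ^ 2 - xc P - xc Q ∧
    yc (P + Q) = -((yc P - yc Q) / (xc P - xc Q) * (xc (P + Q) - xc P) + yc P) := by
  rcases P with _ | ⟨x, y, h⟩
  · exact absurd rfl hP
  rcases Q with _ | ⟨x', y', h'⟩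
  · exact absurd rfl hQ
  have hx' : x ≠ x' := hx
  rw [add_of_X_ne hx']
  refine ⟨fun h => (nomatch h), ?_, ?_⟩
  · simp [xc, yc, addX, slope_of_X_ne hx']
  · simp [xc, yc, Affine.addY, negAddY, addX, slope_of_X_ne hx']

theorem finite_xc_preimage (x : K) :
    {P : (shortW A B).toAffine.Point | xc P = x}.Finite := by
  by_cases h : ∃ T : (shortW A B).toAffine.Point, T ≠ 0 ∧ xc T = x
  · obtain ⟨T, hT, rfl⟩ := h
    refine (Set.toFinite {0, T, -T}).subset fun P hP => ?_
    by_cases hP0 : P = 0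
    · simp [hP0]
    rcases eq_or_eq_neg_of_xc_eq hP0 hT hP with h | h <;> simp [h]
  · refine (Set.finite_singleton 0).subset fun P hP => ?_
    by_contra hne
    exact h ⟨P, hne, hP⟩

theorem finite_xc_preimage_of_finite {s : Set K} (hs : s.Finite) :
    {P : (shortW A B).toAffine.Point | xc P ∈ s}.Finite := by
  have : {P : (shortW A B).toAffine.Point | xc P ∈ s}
      = ⋃ x ∈ s, {P : (shortW A B).toAffine.Point | xc P = x} := by
    ext P; simp
  rw [this]
  exact hs.biUnion fun x _ => finite_xc_preimage x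

theorem yc_eq_zero_of_two_nsmul [NeZero (2 : K)] {T : (shortW A B).toAffine.Point}
    (h : 2 • T = 0) : yc T = 0 := by
  have hneg : -T = T := by rw [neg_eq_iff_add_eq_zero, ← two_nsmul, h]
  have : (2 : K) * yc T = 0 := by
    have := congrArg yc hneg
    rw [yc_neg] at this
    linear_combination -this
  exact (mul_eq_zero.mp this).resolve_left two_ne_zero

theorem two_nsmul_of_yc_eq_zero {T : (shortW A B).toAffine.Point} (hT : T ≠ 0)
    (h : yc T = 0) : 2 • T = 0 := by
  have : -T = T := point_eq (neg_ne_zero.mpr hT) hT (xc_neg T) (by rw [yc_neg, h, _root_.neg_zero])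
  rw [two_nsmul]
  nth_rw 1 [← this]
  exact neg_add_cancel T

theorem finite_two_torsion [NeZero (2 : K)] :
    {T : (shortW A B).toAffine.Point | 2 • T = 0}.Finite := by
  refine ((finite_xc_preimage_of_finite (s := {x | (cubic A B).IsRoot x})
    (finite_setOfPred_isRoot (cubic_monic A B).ne_zero)).union (Set.finite_singleton 0)).subset
      fun T hT => ?_
  by_cases hT0 : T = 0
  · exact Or.inr hT0
  · refine Or.inl ?_
    show (cubic A B).IsRoot (xc T)
    rw [IsRoot, cubic_eval, ← curve_eq hT0, yc_eq_zero_of_two_nsmul hT]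
    ring

theorem finite_two_nsmul_eq [NeZero (2 : K)] (c : (shortW A B).toAffine.Point) :
    {T : (shortW A B).toAffine.Point | 2 • T = c}.Finite := by
  by_cases h : ∃ T₀ : (shortW A B).toAffine.Point, 2 • T₀ = c
  · obtain ⟨T₀, rfl⟩ := h
    refine ((finite_two_torsion (A := A) (B := B)).image fun T => T + T₀).subset fun T hT => ?_
    refine ⟨T - T₀, ?_, sub_add_cancel T T₀⟩
    show 2 • (T - T₀) = 0
    rw [smul_sub, sub_eq_zero]
    exact hT
  · refine Set.finite_empty.subset fun T hT => ?_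
    exact absurd ⟨T, hT⟩ h

theorem point_infinite [IsAlgClosed K] (hΔ : (shortW A B).Δ ≠ 0) :
    Infinite (shortW A B).toAffine.Point :=
  Infinite.of_surjective xc fun x => ⟨_, (exists_point hΔ x).choose_spec.2⟩

end Fermat.Agent.Isogeny.Velu
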