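/-
Functions of one variable with poles confined to a finite set, with a degree bound at infinity.
-/
import Mathlib.Algebra.Polynomial.Bivariate
import Mathlib.FieldTheory.IsAlgClosed.Basic
import Mathlib.Algebra.Polynomial.Monic
import Mathlib.Algebra.Polynomial.Roots
import Mathlib.Algebra.Polynomial.RingDivision
import Mathlib.Tactic.LinearCombination
import Mathlib.Tactic.FieldSimp

set_option autoImplicit false

open Polynomial

namespace Fermat.Agent.Isogeny.Velu

variable {K : Type*} [Field K]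

/-- `N = 0` or `natDegree N ≤ m`, with integer `m`. -/
def DegLE (N : K[X]) (m : ℤ) : Prop := N ≠ 0 → (N.natDegree : ℤ) ≤ m

theorem DegLE.zero (m : ℤ) : DegLE (0 : K[X]) m := fun h => absurd rfl h

theorem DegLE.mono {N : K[X]} {m m' : ℤ} (h : DegLE N m) (hm : m ≤ m') : DegLE N m' :=
  fun hN => (h hN).trans hm

theorem DegLE.add {N N' : K[X]} {m : ℤ} (h : DegLE N m) (h' : DegLE N' m) : DegLE (N + N') m := by
  intro hne
  by_cases hN : N = 0
  · subst hN; rw [zero_add] at hne ⊢; exact h' hne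
  by_cases hN' : N' = 0
  · subst hN'; rw [add_zero] at hne ⊢; exact h hne
  have := natDegree_add_le N N'
  have := h hN
  have := h' hN'
  omega

theorem DegLE.mul {N N' : K[X]} {m m' : ℤ} (h : DegLE N m) (h' : DegLE N' m') :
    DegLE (N * N') (m + m') := by
  intro hne
  obtain ⟨hN, hN'⟩ := mul_ne_zero_iff.mp hne
  rw [natDegree_mul hN hN']
  push_cast
  linarith [h hN, h' hN']

theorem DegLE.neg {N : K[X]} {m : ℤ} (h : DegLE N m) : DegLE (-N) m := by
  intro hne
  rw [natDegree_neg]
  exact h (neg_ne_zero.mp hne)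

theorem degLE_natDegree (N : K[X]) : DegLE N N.natDegree := fun _ => le_rfl

variable (S : Finset K)

/-- The polynomial with simple roots at the points of `S`. -/
noncomputable def DS : K[X] := ∏ a ∈ S, (X - C a)

theorem DS_monic : (DS S).Monic := monic_prod_of_monic _ _ fun a _ => monic_X_sub_C a

theorem DS_natDegree : (DS S).natDegree = S.card := by
  rw [DS, natDegree_prod_of_monic _ _ fun a _ => monic_X_sub_C a]
  simp

theorem DS_eval_ne_zero {x : K} (hx : x ∉ S) : (DS S).eval x ≠ 0 := by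
  rw [DS, eval_prod]
  refine Finset.prod_ne_zero_iff.mpr fun a ha => ?_
  rw [eval_sub, eval_X, eval_C, sub_ne_zero]
  rintro rfl
  exact hx ha

theorem DS_eval_eq_zero {x : K} (hx : x ∈ S) : (DS S).eval x = 0 := by
  rw [DS, eval_prod]
  exact Finset.prod_eq_zero hx (by simp)

theorem sub_ne_zero_of_notMem {x a : K} (hx : x ∉ S) (ha : a ∈ S) : x - a ≠ 0 := by
  rw [sub_ne_zero]; rintro rfl; exact hx ha

/-- `f` agrees off `S` with a rational function with denominator a power of `DS S` and degree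
at most `d` at infinity. -/
def RF (f : K → K) (d : ℤ) : Prop :=
  ∃ k : ℕ, ∃ N : K[X], DegLE N ((k * S.card : ℕ) + d) ∧
    ∀ x, x ∉ S → f x * (DS S).eval x ^ k = N.eval x

variable {S}

theorem RF.congr {f g : K → K} {d : ℤ} (h : RF S f d) (hfg : ∀ x, x ∉ S → g x = f x) :
    RF S g d := by
  obtain ⟨k, N, hN, he⟩ := h
  exact ⟨k, N, hN, fun x hx => by rw [hfg x hx]; exact he x hx⟩

theorem RF.mono {f : K → K} {d d' : ℤ} (h : RF S f d) (hd : d ≤ d') : RF S f d' := by
  obtain ⟨k, N, hN, he⟩ := h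
  exact ⟨k, N, hN.mono (by omega), he⟩

theorem RF.lift {f : K → K} {d : ℤ} {k : ℕ} {N : K[X]} (hN : DegLE N ((k * S.card : ℕ) + d))
    (he : ∀ x, x ∉ S → f x * (DS S).eval x ^ k = N.eval x) (j : ℕ) :
    DegLE (N * DS S ^ j) (((k + j) * S.card : ℕ) + d) ∧
      ∀ x, x ∉ S → f x * (DS S).eval x ^ (k + j) = (N * DS S ^ j).eval x := by
  constructor
  · have := hN.mul (degLE_natDegree (DS S ^ j))
    rw [natDegree_pow, DS_natDegree] at this
    refine this.mono ?_
    push_cast
    ring_nf
    rfl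
  · intro x hx
    rw [eval_mul, eval_pow, pow_add, ← mul_assoc, he x hx]

theorem RF.add {f g : K → K} {d : ℤ} (hf : RF S f d) (hg : RF S g d) :
    RF S (fun x => f x + g x) d := by
  obtain ⟨k, N, hN, he⟩ := hf
  obtain ⟨l, M, hM, he'⟩ := hg
  obtain ⟨h1, h1'⟩ := RF.lift hN he l
  obtain ⟨h2, h2'⟩ := RF.lift hM he' k
  rw [Nat.add_comm l k] at h2 h2'
  exact ⟨k + l, _, h1.add h2, fun x hx => by rw [add_mul, h1' x hx, h2' x hx, eval_add]⟩

theorem RF.neg {f : K → K} {d : ℤ} (hf : RF S f d) : RF S (fun x => -f x) d := by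
  obtain ⟨k, N, hN, he⟩ := hf
  exact ⟨k, -N, hN.neg, fun x hx => by rw [neg_mul, he x hx, eval_neg]⟩

theorem RF.sub {f g : K → K} {d : ℤ} (hf : RF S f d) (hg : RF S g d) :
    RF S (fun x => f x - g x) d :=
  (hf.add hg.neg).congr fun x _ => sub_eq_add_neg _ _

theorem RF.mul {f g : K → K} {d e : ℤ} (hf : RF S f d) (hg : RF S g e) :
    RF S (fun x => f x * g x) (d + e) := by
  obtain ⟨k, N, hN, he⟩ := hf
  obtain ⟨l, M, hM, he'⟩ := hg
  refine ⟨k + l, N * M, (hN.mul hM).mono (le_of_eq ?_), fun x hx => ?_⟩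
  · push_cast; ring
  · rw [eval_mul, ← he x hx, ← he' x hx, pow_add]; ring

theorem RF.mul' {f g h : K → K} {d e r : ℤ} (hf : RF S f d) (hg : RF S g e)
    (hr : d + e ≤ r) (hh : ∀ x, x ∉ S → h x = f x * g x) : RF S h r :=
  ((hf.mul hg).mono hr).congr hh

theorem RF.zero (d : ℤ) : RF S (fun _ => 0) d :=
  ⟨0, 0, DegLE.zero _, fun x _ => by simp⟩

theorem RF.poly (p : K[X]) {d : ℤ} (hp : DegLE p d) : RF S (fun x => p.eval x) d :=
  ⟨0, p, by simpa using hp, fun x _ => by simp⟩

theorem RF.const (c : K) : RF S (fun _ => c) 0 :=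
  (RF.poly (C c) (d := 0) (fun _ => by simp)).congr fun x _ => by simp

theorem RF.id' : RF S (fun x => x) 1 :=
  (RF.poly X (d := 1) (fun _ => by simp)).congr fun x _ => by simp

theorem RF.const_mul (c : K) {f : K → K} {d : ℤ} (hf : RF S f d) : RF S (fun x => c * f x) d :=
  RF.mul' (RF.const c) hf (by omega) fun _ _ => rfl

theorem RF.inv_sub {a : K} (ha : a ∈ S) : RF S (fun x => 1 / (x - a)) (-1) := by
  classical
  refine ⟨1, ∏ b ∈ S.erase a, (X - C b), fun _ => ?_, fun x hx => ?_⟩
  · rw [natDegree_prod_of_monic _ _ fun b _ => monic_X_sub_C b]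
    simp only [natDegree_X_sub_C, Finset.sum_const, smul_eq_mul, mul_one, one_mul,
      Finset.card_erase_of_mem ha]
    have := Finset.card_pos.mpr ⟨a, ha⟩
    omega
  · beta_reduce
    rw [DS, ← Finset.mul_prod_erase _ _ ha, pow_one, eval_mul, eval_sub, eval_X, eval_C,
      one_div, ← mul_assoc, inv_mul_cancel₀ (sub_ne_zero_of_notMem S hx ha), one_mul]

theorem RF.inv_sub_pow {a : K} (ha : a ∈ S) : ∀ j : ℕ, RF S (fun x => 1 / (x - a) ^ j) (-j)
  | 0 => (RF.const 1).congr fun x _ => by simp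
  | j + 1 => RF.mul' (RF.inv_sub_pow ha j) (RF.inv_sub ha) (by push_cast; omega) fun x _ => by
      rw [pow_succ, one_div_mul_one_div]

/-- A polynomial over a power of `x - a`. -/
theorem RF.poly_div {a : K} (ha : a ∈ S) (p : K[X]) {m : ℤ} (hp : DegLE p m) (j : ℕ) {d : ℤ}
    (hd : m - j ≤ d) : RF S (fun x => p.eval x / (x - a) ^ j) d :=
  RF.mul' (RF.poly p hp) (RF.inv_sub_pow ha j) (by omega) fun x _ => by rw [mul_one_div]

theorem RF.sum {ι : Type*} (t : Finset ι) {f : ι → K → K} {d : ℤ}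
    (hf : ∀ i ∈ t, RF S (f i) d) : RF S (fun x => ∑ i ∈ t, f i x) d := by
  classical
  induction t using Finset.induction_on with
  | empty => exact (RF.zero d).congr fun x _ => by simp
  | insert i t hi ih =>
    refine ((hf i (Finset.mem_insert_self _ _)).add
      (ih fun j hj => hf j (Finset.mem_insert_of_mem hj))).congr fun x _ => ?_
    rw [Finset.sum_insert hi]

/-- Leading coefficient at infinity. -/
theorem RF.exists_lead {f : K → K} {d : ℕ} (hf : RF S f d) :
    ∃ c : K, RF S (fun x => f x - c * x ^ d) ((d : ℤ) - 1) := by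
  obtain ⟨k, N, hN, he⟩ := hf
  set c := N.coeff (k * S.card + d) with hc
  have hm : (X ^ d * DS S ^ k).Monic := (monic_X_pow d).mul ((DS_monic S).pow k)
  have hdeg : (X ^ d * DS S ^ k).natDegree = k * S.card + d := by
    rw [(monic_X_pow d).natDegree_mul ((DS_monic S).pow k), natDegree_X_pow,
      (DS_monic S).natDegree_pow, DS_natDegree, add_comm]
  refine ⟨c, k, N - C c * (X ^ d * DS S ^ k), ?_, fun x hx => ?_⟩
  · intro hne
    have h1 : (N - C c * (X ^ d * DS S ^ k)).natDegree ≤ k * S.card + d := by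
      refine (natDegree_sub_le _ _).trans (max_le ?_ ?_)
      · by_cases h0 : N = 0
        · simp [h0]
        · have := hN h0; omega
      · exact (natDegree_C_mul_le _ _).trans hdeg.le
    have h2 : (N - C c * (X ^ d * DS S ^ k)).coeff (k * S.card + d) = 0 := by
      rw [coeff_sub, coeff_C_mul, ← hdeg, hm.coeff_natDegree, mul_one, hdeg, hc, sub_self]
    have h3 : (N - C c * (X ^ d * DS S ^ k)).natDegree ≠ k * S.card + d := by
      intro h
      rw [← h, coeff_natDegree] at h2
      exact hne (leadingCoeff_eq_zero.mp h2)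
    omega
  · rw [sub_mul, he x hx, eval_sub, eval_mul, eval_C, eval_mul, eval_pow, eval_pow, eval_X]
    ring

/-- If `N` has degree below `k * card S` and every point of `S` is a root of multiplicity at
least `k`, then `N = 0`. -/
theorem eq_zero_of_pow_dvd {N : K[X]} {k : ℕ} (hN : DegLE N ((k * S.card : ℕ) + (-1)))
    (hdvd : ∀ a ∈ S, (X - C a) ^ k ∣ N) : N = 0 := by
  by_contra hne
  have hcop : (S : Set K).Pairwise (Function.onFun IsCoprime fun a => (X - C a) ^ k) := by
    intro a _ b _ hab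
    exact (isCoprime_X_sub_C_of_isUnit_sub (sub_ne_zero.mpr hab).isUnit).pow
  have hd : ∏ a ∈ S, (X - C a) ^ k ∣ N := Finset.prod_dvd_of_coprime hcop hdvd
  have := natDegree_le_of_dvd hd hne
  rw [Finset.prod_pow, ← DS, (DS_monic S).natDegree_pow, DS_natDegree] at this
  have := hN hne
  omega

theorem eq_of_eval_eq_off [Infinite K] {p q : K[X]}
    (h : ∀ x, x ∉ S → p.eval x = q.eval x) : p = q := by
  refine eq_of_infinite_eval_eq p q ?_
  refine Set.Infinite.mono (s := (↑S : Set K)ᶜ) (fun x hx => h x hx) ?_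
  exact (S.finite_toSet).infinite_compl

/-- An element of `K[X][Y]` vanishing at the points of `y² = s(x)` off `S` vanishes at all
points of that curve. -/
theorem evalEval_eq_zero_of_off [IsAlgClosed K] [NeZero (2 : K)] {s : K[X]} (hs : s ≠ 0)
    (Φ : K[X][X])
    (h : ∀ x y : K, x ∉ S → y ^ 2 = s.eval x → Φ.evalEval x y = 0)
    {x y : K} (hy : y ^ 2 = s.eval x) : Φ.evalEval x y = 0 := by
  have hmon : (X ^ 2 - C s : K[X][X]).Monic := monic_X_pow_sub_C s two_ne_zero
  set r := Φ %ₘ (X ^ 2 - C s) with hr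
  obtain ⟨a, b, hab⟩ : ∃ a b, r = C b * X + C a := by
    refine ⟨r.coeff 0, r.coeff 1, eq_X_add_C_of_natDegree_le_one ?_⟩
    have hne1 : (X ^ 2 - C s : K[X][X]) ≠ 1 := by
      intro h1
      have := congrArg natDegree h1
      rw [natDegree_X_pow_sub_C, natDegree_one] at this
      omega
    have := natDegree_modByMonic_lt Φ hmon hne1
    rw [natDegree_X_pow_sub_C, ← hr] at this
    omega
  have key : ∀ x y : K, y ^ 2 = s.eval x → Φ.evalEval x y = b.eval x * y + a.eval x := by
    intro x y hy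
    conv_lhs => rw [← modByMonic_add_div Φ (X ^ 2 - C s), ← hr, hab]
    simp [Polynomial.evalEval, hy]
  have ha0 : ∀ u : K, u ∉ S → a.eval u = 0 ∧ (b * s).eval u = 0 := by
    intro u hu
    obtain ⟨v, hv⟩ := IsAlgClosed.exists_eq_mul_self (s.eval u)
    have hv2 : v ^ 2 = s.eval u := by rw [hv]; ring
    have h1 := h u v hu hv2
    rw [key u v hv2] at h1
    have hv' : (-v) ^ 2 = s.eval u := by rw [← hv2]; ring
    have h2 := h u (-v) hu hv'
    rw [key u (-v) hv'] at h2
    constructor
    · have : (2 : K) * a.eval u = 0 := by linear_combination h1 + h2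
      exact (mul_eq_zero.mp this).resolve_left two_ne_zero
    · have : (2 : K) * (b.eval u * s.eval u) = 0 := by
        rw [← hv2]; linear_combination v * h1 - v * h2
      rw [eval_mul]
      exact (mul_eq_zero.mp this).resolve_left two_ne_zero
  have ha : a = 0 := eq_of_eval_eq_off (S := S) fun u hu => by simpa using (ha0 u hu).1
  have hb : b * s = 0 := eq_of_eval_eq_off (S := S) fun u hu => by simpa using (ha0 u hu).2
  have hb' : b = 0 := (mul_eq_zero.mp hb).resolve_right hs
  rw [key x y hy, ha, hb']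
  simp

end Fermat.Agent.Isogeny.Velu
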