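/-
Velu's sums over a finite subgroup and their partial fraction form.
-/
import Fermat.Agent.Isogeny.Velu.RatFn
import Fermat.Agent.Isogeny.Velu.Points
import Mathlib.Algebra.Group.Subgroup.Basic
import Mathlib.Algebra.BigOperators.Group.Finset.Basic

set_option autoImplicit false

open Polynomial WeierstrassCurve WeierstrassCurve.Affine WeierstrassCurve.Affine.Point

namespace Fermat.Agent.Isogeny.Velu

variable {K : Type*} [Field K] [DecidableEq K] {A B : K}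

set_option quotPrecheck false in
local notation "Pt" => (shortW A B).toAffine.Point

variable (C : AddSubgroup (shortW A B).toAffine.Point) [Fintype C]

/-- `Σ_{Q ∈ C} (x(P + Q) - x(Q))`. -/
def Xv (P : Pt) : K := ∑ Q : C, (xc (P + (Q : Pt)) - xc (Q : Pt))

/-- `Σ_{Q ∈ C} (y(P + Q) - y(Q))`. -/
def Yv (P : Pt) : K := ∑ Q : C, (yc (P + (Q : Pt)) - yc (Q : Pt))

/-- The non-zero elements of `C`. -/
def C0 : Finset C := Finset.univ.erase 0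

/-- The abscissae of the non-zero elements of `C`. -/
def Sx : Finset K := (C0 C).image fun Q : C => xc (Q : Pt)

theorem Xv_add_mem {Q : Pt} (hQ : Q ∈ C) (P : Pt) : Xv C (P + Q) = Xv C P := by
  simp only [Xv, Finset.sum_sub_distrib]
  congr 1
  refine Fintype.sum_equiv (Equiv.addLeft (⟨Q, hQ⟩ : C)) _ _ fun R => ?_
  simp [add_assoc]

theorem Yv_add_mem {Q : Pt} (hQ : Q ∈ C) (P : Pt) : Yv C (P + Q) = Yv C P := by
  simp only [Yv, Finset.sum_sub_distrib]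
  congr 1
  refine Fintype.sum_equiv (Equiv.addLeft (⟨Q, hQ⟩ : C)) _ _ fun R => ?_
  simp [add_assoc]

theorem mem_C0 {Q : C} : Q ∈ C0 C ↔ (Q : Pt) ≠ 0 := by
  simp [C0]

theorem xc_mem_Sx {Q : Pt} (hQ : Q ∈ C) (h0 : Q ≠ 0) : xc Q ∈ Sx C :=
  Finset.mem_image.mpr ⟨⟨Q, hQ⟩, (mem_C0 C).mpr h0, rfl⟩

theorem mem_Sx {a : K} (ha : a ∈ Sx C) : ∃ Q : Pt, Q ∈ C ∧ Q ≠ 0 ∧ xc Q = a := by
  obtain ⟨Q, hQ, rfl⟩ := Finset.mem_image.mp ha
  exact ⟨Q, Q.2, (mem_C0 C).mp hQ, rfl⟩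

theorem ne_zero_of_notMem {P : Pt} (hP : P ∉ C) : P ≠ 0 :=
  fun h => hP (h ▸ zero_mem C)

theorem xc_notMem_Sx {P : Pt} (hP : P ∉ C) : xc P ∉ Sx C := by
  intro h
  obtain ⟨Q, hQ, h0, hx⟩ := mem_Sx C h
  rcases eq_or_eq_neg_of_xc_eq (ne_zero_of_notMem C hP) h0 hx.symm with rfl | rfl
  · exact hP hQ
  · exact hP (neg_mem hQ)

theorem xc_ne_of_notMem {P Q : Pt} (hP : P ∉ C) (hQ : Q ∈ C) (h0 : Q ≠ 0) : xc P ≠ xc Q :=
  fun h => xc_notMem_Sx C hP (h ▸ xc_mem_Sx C hQ h0)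

theorem exists_point_notMem [IsAlgClosed K] (hΔ : (shortW A B).Δ ≠ 0) {x : K} (hx : x ∉ Sx C) :
    ∃ P : Pt, P ∉ C ∧ xc P = x := by
  obtain ⟨P, hP0, rfl⟩ := exists_point hΔ x
  exact ⟨P, fun h => hx (xc_mem_Sx C h hP0), rfl⟩

theorem add_mem_coset {P Q : Pt} (hP : P ∉ C) (hQ : Q ∈ C) : P + Q ∉ C :=
  fun h => hP (by simpa using C.sub_mem h hQ)

theorem neg_notMem {P : Pt} (hP : P ∉ C) : -P ∉ C :=
  fun h => hP (by simpa using neg_mem h)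

theorem sum_C0_neg (f : Pt → K) :
    ∑ Q ∈ C0 C, f (Q : Pt) = ∑ Q ∈ C0 C, f (-(Q : Pt)) := by
  refine Finset.sum_equiv (Equiv.neg C) (fun Q => ?_) fun Q _ => ?_
  · simp [mem_C0]
  · simp

variable [NeZero (2 : K)]

theorem sum_eq_of_pairs {f g : Pt → K}
    (h : ∀ Q ∈ C0 C, f (Q : Pt) + f (-(Q : Pt)) = 2 * g (Q : Pt)) :
    ∑ Q ∈ C0 C, f (Q : Pt) = ∑ Q ∈ C0 C, g (Q : Pt) := by
  have h' : (2 : K) * ∑ Q ∈ C0 C, f (Q : Pt) = 2 * ∑ Q ∈ C0 C, g (Q : Pt) := by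
    rw [two_mul]
    nth_rw 2 [sum_C0_neg C f]
    rw [← Finset.sum_add_distrib, Finset.mul_sum]
    exact Finset.sum_congr rfl h
  exact mul_left_cancel₀ two_ne_zero h'

/-- `3 x(Q)² + A`. -/
def tQ (Q : Pt) : K := 3 * xc Q ^ 2 + A

/-- `2 (x(Q)³ + A x(Q) + B)`. -/
def uQ (Q : Pt) : K := 2 * (xc Q ^ 3 + A * xc Q + B)

/-- The fractional part of `X`. -/
def Rx (x : K) : K :=
  ∑ Q ∈ C0 C, (tQ (Q : Pt) / (x - xc (Q : Pt)) + uQ (Q : Pt) / (x - xc (Q : Pt)) ^ 2)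

/-- The fractional part of `dX/dx`. -/
def Rd (x : K) : K :=
  -∑ Q ∈ C0 C, (tQ (Q : Pt) / (x - xc (Q : Pt)) ^ 2 + 2 * uQ (Q : Pt) / (x - xc (Q : Pt)) ^ 3)

theorem Xv_eq {P : Pt} (hP : P ∉ C) : Xv C P = xc P + Rx C (xc P) := by
  rw [Xv, ← Finset.add_sum_erase _ _ (Finset.mem_univ (0 : C))]
  simp only [ZeroMemClass.coe_zero, add_zero, xc_zero, sub_zero]
  congr 1
  refine sum_eq_of_pairs C (f := fun Q => xc (P + Q) - xc Q)
    (g := fun Q => tQ Q / (xc P - xc Q) + uQ Q / (xc P - xc Q) ^ 2) fun Q hQ => ?_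
  have hQ0 := (mem_C0 C).mp hQ
  have hne := xc_ne_of_notMem C hP Q.2 hQ0
  obtain ⟨-, hx1, -⟩ := add_coords (ne_zero_of_notMem C hP) hQ0 hne
  obtain ⟨-, hx2, -⟩ := add_coords (ne_zero_of_notMem C hP) (neg_ne_zero.mpr hQ0)
    (by rwa [xc_neg])
  rw [hx1, hx2, xc_neg, yc_neg, tQ, uQ]
  have h1 := curve_eq (ne_zero_of_notMem C hP)
  have h2 := curve_eq hQ0
  have hz : xc P - xc (Q : Pt) ≠ 0 := sub_ne_zero.mpr hne
  field_simp
  linear_combination 2 * h1 + 2 * h2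

theorem Yv_eq {P : Pt} (hP : P ∉ C) : Yv C P = yc P * (1 + Rd C (xc P)) := by
  rw [Yv, ← Finset.add_sum_erase _ _ (Finset.mem_univ (0 : C))]
  simp only [ZeroMemClass.coe_zero, add_zero, yc_zero, sub_zero, mul_add, mul_one]
  congr 1
  rw [Rd, ← Finset.sum_neg_distrib, Finset.mul_sum]
  refine sum_eq_of_pairs C (f := fun Q => yc (P + Q) - yc Q)
    (g := fun Q => yc P * -(tQ Q / (xc P - xc Q) ^ 2 + 2 * uQ Q / (xc P - xc Q) ^ 3)) fun Q hQ => ?_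
  have hQ0 := (mem_C0 C).mp hQ
  have hne := xc_ne_of_notMem C hP Q.2 hQ0
  obtain ⟨-, hx1, hy1⟩ := add_coords (ne_zero_of_notMem C hP) hQ0 hne
  obtain ⟨-, hx2, hy2⟩ := add_coords (ne_zero_of_notMem C hP) (neg_ne_zero.mpr hQ0)
    (by rwa [xc_neg])
  rw [hy1, hy2, hx1, hx2, xc_neg, yc_neg, tQ, uQ]
  have h1 := curve_eq (ne_zero_of_notMem C hP)
  have h2 := curve_eq hQ0
  have hz : xc P - xc (Q : Pt) ≠ 0 := sub_ne_zero.mpr hne
  field_simp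
  linear_combination (-2 * yc P) * h1 - (6 * yc P) * h2

theorem Yv_neg {P : Pt} (hP : P ∉ C) : Yv C (-P) = -Yv C P := by
  rw [Yv_eq C hP, Yv_eq C (neg_notMem C hP), xc_neg, yc_neg, neg_mul]

theorem Xv_neg {P : Pt} (hP : P ∉ C) : Xv C (-P) = Xv C P := by
  rw [Xv_eq C hP, Xv_eq C (neg_notMem C hP), xc_neg]

/-- The coefficient `A'` of the quotient curve. -/
def Av : K := A - 5 * ∑ Q ∈ C0 C, tQ (Q : Pt)

/-- The coefficient `B'` of the quotient curve. -/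
def Bv : K := B - 7 * ∑ Q ∈ C0 C, (uQ (Q : Pt) + xc (Q : Pt) * tQ (Q : Pt))

theorem rf_Rx : RF (Sx C) (Rx C) (-1) := by
  refine RF.sum (C0 C) fun Q hQ => ?_
  have ha : xc (Q : Pt) ∈ Sx C := xc_mem_Sx C Q.2 ((mem_C0 C).mp hQ)
  refine ((RF.poly_div ha (Polynomial.C (tQ (Q : Pt))) (m := 0) (fun _ => by simp) 1 (by norm_num)).congr
    fun x _ => by simp).add ?_
  exact (RF.poly_div ha (Polynomial.C (uQ (Q : Pt))) (m := 0) (fun _ => by simp) 2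
    (by norm_num)).congr fun x _ => by simp

theorem rf_Rd : RF (Sx C) (Rd C) (-2) := by
  refine (RF.sum (C0 C) fun Q hQ => ?_).neg
  have ha : xc (Q : Pt) ∈ Sx C := xc_mem_Sx C Q.2 ((mem_C0 C).mp hQ)
  refine ((RF.poly_div ha (Polynomial.C (tQ (Q : Pt))) (m := 0) (fun _ => by simp) 2 (by norm_num)).congr
    fun x _ => by simp).add ?_
  exact (RF.poly_div ha (Polynomial.C (2 * uQ (Q : Pt))) (m := 0) (fun _ => by rw [natDegree_C]; simp) 3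
    (by norm_num)).congr fun x _ => by simp

/-- The defect in the equation of the quotient curve. -/
def Gx (x : K) : K :=
  (x ^ 3 + A * x + B) * (1 + Rd C x) ^ 2 - ((x + Rx C x) ^ 3 + Av C * (x + Rx C x) + Bv C)

theorem rf_Gx : RF (Sx C) (Gx C) (-1) := by
  have hR := rf_Rx C
  have hD := rf_Rd C
  have hs : RF (Sx C) (fun x => x ^ 3 + A * x + B) 3 :=
    (RF.poly (cubic A B) (d := 3) (fun _ => by rw [cubic_natDegree]; rfl)).congr
      fun x _ => by rw [cubic_eval]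
  have e1 : RF (Sx C) (fun x => (x ^ 3 + A * x + B) * (Rd C x * Rd C x)) (-1) :=
    RF.mul' hs (hD.mul hD) (by norm_num) fun _ _ => rfl
  have e2 : RF (Sx C) (fun x => 3 * (x * (Rx C x * Rx C x))) (-1) :=
    RF.mul' (RF.const 3) (RF.id'.mul (hR.mul hR)) (by norm_num) fun _ _ => rfl
  have e3 : RF (Sx C) (fun x => Rx C x * (Rx C x * Rx C x)) (-1) :=
    RF.mul' hR (hR.mul hR) (by norm_num) fun _ _ => rfl
  have e4 : RF (Sx C) (fun x => Av C * Rx C x) (-1) := hR.const_mul _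
  have main : RF (Sx C) (fun x => ∑ Q ∈ C0 C,
      (tQ (Q : Pt) * ((-2 * A - 9 * xc (Q : Pt) ^ 2) * x + (7 * xc (Q : Pt) ^ 3 - 2 * B))
          / (x - xc (Q : Pt)) ^ 2 +
       uQ (Q : Pt) * (-18 * xc (Q : Pt) * x ^ 2 + (21 * xc (Q : Pt) ^ 2 - 4 * A) * x
          + (-7 * xc (Q : Pt) ^ 3 - 4 * B)) / (x - xc (Q : Pt)) ^ 3)) (-1) := by
    refine RF.sum (C0 C) fun Q hQ => ?_
    have ha : xc (Q : Pt) ∈ Sx C := xc_mem_Sx C Q.2 ((mem_C0 C).mp hQ)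
    refine ((RF.poly_div ha (Polynomial.C (tQ (Q : Pt) * (-2 * A - 9 * xc (Q : Pt) ^ 2)) * X
      + Polynomial.C (tQ (Q : Pt) * (7 * xc (Q : Pt) ^ 3 - 2 * B))) (m := 1)
      (fun _ => by exact_mod_cast natDegree_linear_le) 2 (by norm_num)).congr
      fun x _ => by simp; ring).add ?_
    exact (RF.poly_div ha (Polynomial.C (uQ (Q : Pt) * (-18 * xc (Q : Pt))) * X ^ 2
      + Polynomial.C (uQ (Q : Pt) * (21 * xc (Q : Pt) ^ 2 - 4 * A)) * X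
      + Polynomial.C (uQ (Q : Pt) * (-7 * xc (Q : Pt) ^ 3 - 4 * B))) (m := 2)
      (fun _ => by exact_mod_cast natDegree_quadratic_le) 3 (by norm_num)).congr
      fun x _ => by simp; ring
  refine ((((e1.sub e2).sub e3).sub e4).add main).congr fun x hx => ?_
  simp only [Gx]
  have key : (∑ Q ∈ C0 C,
      (tQ (Q : Pt) * ((-2 * A - 9 * xc (Q : Pt) ^ 2) * x + (7 * xc (Q : Pt) ^ 3 - 2 * B))
          / (x - xc (Q : Pt)) ^ 2 +
       uQ (Q : Pt) * (-18 * xc (Q : Pt) * x ^ 2 + (21 * xc (Q : Pt) ^ 2 - 4 * A) * x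
          + (-7 * xc (Q : Pt) ^ 3 - 4 * B)) / (x - xc (Q : Pt)) ^ 3))
      = 2 * (x ^ 3 + A * x + B) * Rd C x - 3 * x ^ 2 * Rx C x + (A - Av C) * x + (B - Bv C) := by
    simp only [Rd, Rx, Av, Bv, sub_sub_cancel, mul_neg, Finset.mul_sum, Finset.sum_mul,
      ← Finset.sum_neg_distrib, ← Finset.sum_sub_distrib, ← Finset.sum_add_distrib]
    refine Finset.sum_congr rfl fun Q hQ => ?_
    have hz : x - xc (Q : Pt) ≠ 0 :=
      sub_ne_zero_of_notMem _ hx (xc_mem_Sx C Q.2 ((mem_C0 C).mp hQ))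
    field_simp
    ring
  rw [key]
  ring

theorem Gx_xc {P : Pt} (hP : P ∉ C) :
    Gx C (xc P) = Yv C P ^ 2 - (Xv C P ^ 3 + Av C * Xv C P + Bv C) := by
  rw [Gx, Xv_eq C hP, Yv_eq C hP, mul_pow, curve_eq (ne_zero_of_notMem C hP)]

end Fermat.Agent.Isogeny.Velu
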