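/-
Velu's sums commute with field endomorphisms preserving the curve and the subgroup.
-/
import Fermat.Agent.Isogeny.Velu.Formulas

set_option autoImplicit false

open Polynomial WeierstrassCurve WeierstrassCurve.Affine WeierstrassCurve.Affine.Point

namespace Fermat.Agent.Isogeny.Velu

variable {K : Type*} [Field K] [DecidableEq K] {A B : K}

set_option quotPrecheck false in
local notation "Pt" => (shortW A B).toAffine.Point

variable (C : AddSubgroup (shortW A B).toAffine.Point) [Fintype C]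

/-- A field endomorphism acting compatibly on points and preserving `C`. -/
structure IsCompat (σ : K →+* K) (g : (shortW A B).toAffine.Point →+ (shortW A B).toAffine.Point) :
    Prop where
  hA : σ A = A
  hB : σ B = B
  inj : Function.Injective g
  hx : ∀ P, xc (g P) = σ (xc P)
  hy : ∀ P, yc (g P) = σ (yc P)
  maps : ∀ P ∈ C, g P ∈ C

variable {C} {σ : K →+* K} {g : (shortW A B).toAffine.Point →+ (shortW A B).toAffine.Point}

omit [Fintype C] in
theorem IsCompat.injective_sub (h : IsCompat C σ g) :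
    Function.Injective fun Q : C => (⟨g (Q : Pt), h.maps _ Q.2⟩ : C) :=
  fun _ _ e => Subtype.ext (h.inj (congrArg Subtype.val e))

theorem IsCompat.sum_C (h : IsCompat C σ g) (f : Pt → K) :
    ∑ Q : C, f (g (Q : Pt)) = ∑ Q : C, f (Q : Pt) :=
  Fintype.sum_bijective (fun Q : C => (⟨g (Q : Pt), h.maps _ Q.2⟩ : C))
    (Finite.injective_iff_bijective.mp h.injective_sub) _ _ fun _ => rfl

theorem IsCompat.Xv (h : IsCompat C σ g) (P : Pt) : σ (Xv C P) = Xv C (g P) := by
  simp only [Velu.Xv]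
  rw [map_sum]
  refine Eq.trans ?_ (h.sum_C fun R => xc (g P + R) - xc R)
  exact Finset.sum_congr rfl fun Q _ => by rw [map_sub, ← h.hx, ← h.hx, map_add]

theorem IsCompat.Yv (h : IsCompat C σ g) (P : Pt) : σ (Yv C P) = Yv C (g P) := by
  simp only [Velu.Yv]
  rw [map_sum]
  refine Eq.trans ?_ (h.sum_C fun R => yc (g P + R) - yc R)
  exact Finset.sum_congr rfl fun Q _ => by rw [map_sub, ← h.hy, ← h.hy, map_add]

theorem sum_C0_eq (f : Pt → K) : ∑ Q ∈ C0 C, f (Q : Pt) = ∑ Q : C, f (Q : Pt) - f 0 := by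
  rw [C0, Finset.sum_erase_eq_sub (Finset.mem_univ _)]
  rfl

theorem IsCompat.sum_C0 (h : IsCompat C σ g) {f : Pt → K}
    (hf : ∀ Q, σ (f Q) = f (g Q)) :
    σ (∑ Q ∈ C0 C, f (Q : Pt)) = ∑ Q ∈ C0 C, f (Q : Pt) := by
  rw [sum_C0_eq, map_sub, map_sum, hf 0, g.map_zero]
  congr 1
  rw [← h.sum_C f]
  exact Finset.sum_congr rfl fun Q _ => hf _

theorem IsCompat.Av (h : IsCompat C σ g) : σ (Av C) = Av C := by
  simp only [Velu.Av]
  rw [map_sub, map_mul, h.hA, map_ofNat, h.sum_C0 fun Q => ?_]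
  simp only [tQ, h.hx, map_add, map_mul, map_pow, map_ofNat, h.hA]

theorem IsCompat.Bv (h : IsCompat C σ g) : σ (Bv C) = Bv C := by
  simp only [Velu.Bv]
  rw [map_sub, map_mul, h.hB, map_ofNat, h.sum_C0 (f := fun Q => uQ Q + xc Q * tQ Q) fun Q => ?_]
  simp only [tQ, uQ, h.hx, map_add, map_mul, map_pow, map_ofNat, h.hA, h.hB]

end Fermat.Agent.Isogeny.Velu
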