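/-
Functions invariant under translation by `C`, and the fibres of `X`.
-/
import Fermat.Agent.Isogeny.Velu.Formulas
import Mathlib.Algebra.Order.BigOperators.Group.Finset
import Mathlib.Algebra.CharZero.Defs
import Mathlib.GroupTheory.OrderOfElement

set_option autoImplicit false

open Polynomial WeierstrassCurve WeierstrassCurve.Affine WeierstrassCurve.Affine.Point

namespace Fermat.Agent.Isogeny.Velu

variable {K : Type*} [Field K] [DecidableEq K] {A B : K}

set_option quotPrecheck false in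
local notation "Pt" => (shortW A B).toAffine.Point

variable (C : AddSubgroup (shortW A B).toAffine.Point) [Fintype C]

theorem eq_zero_of_two_nsmul (hodd : Odd (Fintype.card C)) {Q : Pt} (hQ : Q ∈ C)
    (h2 : 2 • Q = 0) : Q = 0 := by
  obtain ⟨m, hm⟩ := hodd
  have h : Fintype.card C • (⟨Q, hQ⟩ : C) = 0 := card_nsmul_eq_zero
  have h2' : 2 • (⟨Q, hQ⟩ : C) = 0 := Subtype.ext h2
  rw [hm, add_nsmul, mul_nsmul, h2', one_nsmul, nsmul_zero, zero_add] at h
  exact congrArg Subtype.val h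

theorem two_nsmul_mem_iff (hodd : Odd (Fintype.card C)) {P : Pt} (h2 : 2 • P = 0) (hP : P ∈ C) :
    P = 0 :=
  eq_zero_of_two_nsmul C hodd hP h2

theorem yc_ne_zero (hodd : Odd (Fintype.card C)) {Q : Pt} (hQ : Q ∈ C) (h0 : Q ≠ 0) :
    yc Q ≠ 0 :=
  fun h => h0 (eq_zero_of_two_nsmul C hodd hQ (two_nsmul_of_yc_eq_zero h0 h))

theorem two_card_Sx_le (hodd : Odd (Fintype.card C)) :
    2 * (Sx C).card + 1 ≤ Fintype.card C := by
  have h : 2 * (Sx C).card ≤ (C0 C).card := by
    refine Finset.mul_card_image_le_card (C0 C) 2 fun a ha => ?_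
    obtain ⟨Q, hQ, h0, rfl⟩ := mem_Sx C ha
    refine Finset.one_lt_card.mpr ⟨⟨Q, hQ⟩, ?_, -⟨Q, hQ⟩, ?_, ?_⟩
    · simp [mem_C0, h0]
    · simp [mem_C0, h0]
    · intro h
      have h' : Q = -Q := congrArg (fun R : C => (R : Pt)) h
      refine h0 (eq_zero_of_two_nsmul C hodd hQ ?_)
      rw [two_nsmul]
      nth_rw 2 [h']
      exact add_neg_cancel Q
  have h2 : (C0 C).card + 1 = Fintype.card C := by
    rw [C0, Finset.card_erase_add_one (Finset.mem_univ _), Finset.card_univ]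
  omega

variable [CharZero K] [IsAlgClosed K] (hΔ : (shortW A B).Δ ≠ 0) (hodd : Odd (Fintype.card C))

include hΔ hodd in
/-- A function of `x`, bounded at infinity with poles in `Sx C`, invariant under translation by
`C`, and vanishing at infinity, is zero. -/
theorem eq_zero_of_invariant {f : K → K} (hf : RF (Sx C) f (-1))
    (hinv : ∀ P : Pt, P ∉ C → ∀ Q ∈ C, f (xc (P + Q)) = f (xc P)) :
    ∀ x, x ∉ Sx C → f x = 0 := by
  obtain ⟨k, N, hN, he⟩ := hf
  suffices hN0 : N = 0 by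
    intro x hx
    have h := he x hx
    rw [hN0, eval_zero] at h
    exact (mul_eq_zero.mp h).resolve_right (pow_ne_zero _ (DS_eval_ne_zero _ hx))
  refine eq_zero_of_pow_dvd (S := Sx C) hN fun a ha => ?_
  by_contra hndvd
  have hNne : N ≠ 0 := fun h => hndvd (h ▸ dvd_zero _)
  set m := N.rootMultiplicity a with hm
  have hmk : m < k := by
    by_contra hle
    exact hndvd ((pow_dvd_pow _ (not_lt.mp hle)).trans (pow_rootMultiplicity_dvd N a))
  obtain ⟨M, hNM, hMa⟩ := exists_eq_pow_rootMultiplicity_mul_and_not_dvd N hNne a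
  rw [← hm] at hNM
  have hMa' : M.eval a ≠ 0 := fun h => hMa (dvd_iff_isRoot.mpr h)
  obtain ⟨Q, hQ, hQ0, hQx⟩ := mem_Sx C ha
  have hyQ : yc Q ≠ 0 := yc_ne_zero C hodd hQ hQ0
  -- `xc (P + Q) * (x - a)^2` as a polynomial in `x`, `y`
  let al : K[X][X] := (Polynomial.X - Polynomial.C (Polynomial.C (yc Q))) ^ 2
      - Polynomial.C ((Polynomial.X + Polynomial.C a) * (Polynomial.X - Polynomial.C a) ^ 2)
  let z : K[X][X] := Polynomial.C (Polynomial.X - Polynomial.C a)
  have hal : ∀ x y : K, al.evalEval x y = (y - yc Q) ^ 2 - (x + a) * (x - a) ^ 2 := by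
    intro x y; simp [al, Polynomial.evalEval]
  have hz : ∀ x y : K, z.evalEval x y = x - a := by
    intro x y; simp [z, Polynomial.evalEval]
  have hKn : N.natDegree ≤ k * (Sx C).card := by
    have := hN hNne; omega
  let Nt : K[X][X] := ∑ i ∈ Finset.range (k * (Sx C).card + 1),
    Polynomial.C (Polynomial.C (N.coeff i)) * al ^ i * (z ^ 2) ^ (k * (Sx C).card - i)
  let Dt : K[X][X] := ∏ b ∈ Sx C, (al - Polynomial.C (Polynomial.C b) * z ^ 2)
  let rest : K[X] := ∏ b ∈ (Sx C).erase a, (Polynomial.X - Polynomial.C b)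
  let Φ : K[X][X] := Polynomial.C M * Dt ^ k - z ^ (k - m) * Polynomial.C rest ^ k * Nt
  have hzero : ∀ x y : K, x ∉ Sx C → y ^ 2 = (cubic A B).eval x → Φ.evalEval x y = 0 := by
    intro x y hx hy
    rw [cubic_eval] at hy
    obtain ⟨P, hP0, hPx, hPy⟩ := exists_point_of_eq hΔ hy
    have hPC : P ∉ C := fun h => hx (hPx ▸ xc_mem_Sx C h hP0)
    have hne := xc_ne_of_notMem C hPC hQ hQ0
    obtain ⟨-, hx', -⟩ := add_coords hP0 hQ0 hne
    have hxa : x - a ≠ 0 := sub_ne_zero_of_notMem _ hx ha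
    rw [hPx, hPy, hQx] at hx'
    have hx'S := xc_notMem_Sx C (add_mem_coset C hPC hQ)
    have e1 := he x hx
    have e2 := he _ hx'S
    rw [hinv P hPC Q hQ, hPx] at e2
    generalize hw : xc (P + Q) = w at hx' hx'S e2
    have halw : al.evalEval x y = w * (x - a) ^ 2 := by
      rw [hal, hx']; field_simp; ring
    have hDt : Dt.evalEval x y = (DS (Sx C)).eval w * ((x - a) ^ 2) ^ (Sx C).card := by
      rw [← coe_evalEvalRingHom, map_prod, DS, eval_prod, ← Finset.prod_const,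
        ← Finset.prod_mul_distrib]
      refine Finset.prod_congr rfl fun b _ => ?_
      simp only [coe_evalEvalRingHom, evalEval_sub, evalEval_mul, evalEval_pow, evalEval_C,
        eval_C, hz, halw, eval_sub, eval_X]
      ring
    have hNt : Nt.evalEval x y = N.eval w * ((x - a) ^ 2) ^ (k * (Sx C).card) := by
      rw [← coe_evalEvalRingHom, map_sum,
        eval_eq_sum_range' (Nat.lt_succ_of_le hKn) w, Finset.sum_mul]
      refine Finset.sum_congr rfl fun i hi => ?_
      have hi' : i ≤ k * (Sx C).card := Nat.lt_succ_iff.mp (Finset.mem_range.mp hi)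
      simp only [coe_evalEvalRingHom, evalEval_mul, evalEval_pow, evalEval_C, eval_C, hz, halw,
        mul_pow]
      conv_rhs => rw [← Nat.add_sub_cancel' hi', pow_add]
      ring
    have hDS : (DS (Sx C)).eval x = (x - a) * rest.eval x := by
      rw [DS, ← Finset.mul_prod_erase _ _ ha, eval_mul, eval_sub, eval_X, eval_C]
    have hMN : N.eval x = (x - a) ^ m * M.eval x := by
      conv_lhs => rw [hNM]
      simp
    have hpow : (x - a) ^ k = (x - a) ^ m * (x - a) ^ (k - m) := by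
      rw [← pow_add, Nat.add_sub_cancel' hmk.le]
    have key : (x - a) ^ m * Φ.evalEval x y = 0 := by
      simp only [Φ, evalEval_sub, evalEval_mul, evalEval_pow, evalEval_C, hz, hDt, hNt, mul_pow,
        ← pow_mul]
      rw [← e2]
      rw [hMN, hDS, mul_pow, hpow] at e1
      linear_combination (-((DS (Sx C)).eval w ^ k * (x - a) ^ (2 * (k * (Sx C).card)))) * e1
    exact (mul_eq_zero.mp key).resolve_left (pow_ne_zero _ hxa)
  have hcurve : (-yc Q) ^ 2 = (cubic A B).eval a := by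
    rw [cubic_eval, neg_sq, curve_eq hQ0, hQx]
  have h0 := evalEval_eq_zero_of_off (cubic_monic A B).ne_zero Φ hzero hcurve
  have hD0 : Dt.evalEval a (-yc Q) ≠ 0 := by
    rw [← coe_evalEvalRingHom, map_prod]
    refine Finset.prod_ne_zero_iff.mpr fun b _ => ?_
    simp only [coe_evalEvalRingHom, evalEval_sub, evalEval_mul, evalEval_pow, evalEval_C, eval_C,
      hz, hal, sub_self]
    ring_nf
    simp [hyQ]
  simp only [Φ, evalEval_sub, evalEval_mul, evalEval_pow, evalEval_C, hz, sub_self] at h0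
  rw [zero_pow (by omega), zero_mul, zero_mul, sub_zero] at h0
  exact mul_ne_zero hMa' (pow_ne_zero _ hD0) h0

include hΔ hodd in
/-- An invariant function with at most a simple pole at infinity is affine in `X`. -/
theorem eq_affine_of_invariant {f : K → K} (hf : RF (Sx C) f 1)
    (hinv : ∀ P : Pt, P ∉ C → ∀ Q ∈ C, f (xc (P + Q)) = f (xc P)) :
    ∃ a b : K, ∀ P : Pt, P ∉ C → f (xc P) = a + b * Xv C P := by
  obtain ⟨b, hb⟩ := RF.exists_lead (d := 1) (by exact_mod_cast hf)
  have h0 : RF (Sx C) (fun x => f x - b * (x + Rx C x)) 0 :=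
    (RF.sub (hb.mono (d' := 0) (by norm_num))
      (((rf_Rx C).mono (d' := 0) (by norm_num)).const_mul b)).congr fun x _ => by ring
  obtain ⟨a, ha⟩ := RF.exists_lead (d := 0) (by exact_mod_cast h0)
  have hz : RF (Sx C) (fun x => f x - b * (x + Rx C x) - a) (-1) :=
    (ha.mono (by norm_num)).congr fun x _ => by ring
  refine ⟨a, b, fun P hP => ?_⟩
  have := eq_zero_of_invariant C hΔ hodd hz (fun P hP Q hQ => by
    rw [hinv P hP Q hQ, ← Xv_eq C hP, ← Xv_eq C (add_mem_coset C hP hQ), Xv_add_mem C hQ P])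
    (xc P) (xc_notMem_Sx C hP)
  rw [← Xv_eq C hP] at this
  linear_combination this

include hΔ hodd in
/-- The equation of the quotient curve. -/
theorem equation_Xv_Yv {P : Pt} (hP : P ∉ C) :
    Yv C P ^ 2 = Xv C P ^ 3 + Av C * Xv C P + Bv C := by
  have := eq_zero_of_invariant C hΔ hodd (rf_Gx C) (fun R hR Q hQ => by
    rw [Gx_xc C hR, Gx_xc C (add_mem_coset C hR hQ), Xv_add_mem C hQ R, Yv_add_mem C hQ R])
    (xc P) (xc_notMem_Sx C hP)
  rw [Gx_xc C hP] at this
  linear_combination this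

/-- The numerator of `X`. -/
noncomputable def Mx : K[X] :=
  Polynomial.X * DS (Sx C) ^ 2 + ∑ Q ∈ C0 C,
    (Polynomial.C (tQ (Q : Pt)) * (Polynomial.X - Polynomial.C (xc (Q : Pt))) +
      Polynomial.C (uQ (Q : Pt))) *
      (∏ b ∈ (Sx C).erase (xc (Q : Pt)), (Polynomial.X - Polynomial.C b)) ^ 2

omit [CharZero K] [IsAlgClosed K] in
theorem Mx_eval {x : K} (hx : x ∉ Sx C) :
    (Mx C).eval x = (x + Rx C x) * (DS (Sx C)).eval x ^ 2 := by
  rw [Mx, eval_add, add_mul, eval_mul, eval_X, eval_pow, Rx, Finset.sum_mul, eval_finsetSum]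
  congr 1
  refine Finset.sum_congr rfl fun Q hQ => ?_
  have ha : xc (Q : Pt) ∈ Sx C := xc_mem_Sx C Q.2 ((mem_C0 C).mp hQ)
  have hz := sub_ne_zero_of_notMem _ hx ha
  rw [DS, ← Finset.mul_prod_erase _ _ ha]
  simp only [eval_mul, eval_add, eval_pow, eval_C, eval_sub, eval_X]
  field_simp

omit [CharZero K] [IsAlgClosed K] in
theorem Mx_tail_natDegree (e : K) :
    ((∑ Q ∈ C0 C,
      (Polynomial.C (tQ (Q : Pt)) * (Polynomial.X - Polynomial.C (xc (Q : Pt))) +
        Polynomial.C (uQ (Q : Pt))) *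
        (∏ b ∈ (Sx C).erase (xc (Q : Pt)), (Polynomial.X - Polynomial.C b)) ^ 2) -
      Polynomial.C e * DS (Sx C) ^ 2).natDegree ≤ 2 * (Sx C).card := by
  refine (natDegree_sub_le _ _).trans (max_le ?_ ?_)
  · refine natDegree_sum_le_of_forall_le _ _ fun Q hQ => ?_
    have ha : xc (Q : Pt) ∈ Sx C := xc_mem_Sx C Q.2 ((mem_C0 C).mp hQ)
    refine natDegree_mul_le.trans ?_
    rw [natDegree_pow, natDegree_prod_of_monic _ _ fun b _ => monic_X_sub_C b]
    simp only [natDegree_X_sub_C, Finset.sum_const, smul_eq_mul, mul_one,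
      Finset.card_erase_of_mem ha]
    have h1 : (Polynomial.C (tQ (Q : Pt)) * (Polynomial.X - Polynomial.C (xc (Q : Pt))) +
        Polynomial.C (uQ (Q : Pt))).natDegree ≤ 1 :=
      (natDegree_add_le _ _).trans
        (max_le ((natDegree_C_mul_le _ _).trans (natDegree_X_sub_C_le _)) (by simp))
    have := Finset.card_pos.mpr ⟨_, ha⟩
    omega
  · refine (natDegree_C_mul_le _ _).trans ?_
    rw [natDegree_pow, DS_natDegree]

omit [CharZero K] [IsAlgClosed K] in
theorem Mx_sub_natDegree (e : K) :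
    (Mx C - Polynomial.C e * DS (Sx C) ^ 2).natDegree = 2 * (Sx C).card + 1 := by
  rw [Mx, add_sub_assoc]
  have h : (Polynomial.X * DS (Sx C) ^ 2).natDegree = 2 * (Sx C).card + 1 := by
    rw [natDegree_mul X_ne_zero (pow_ne_zero _ (DS_monic _).ne_zero), natDegree_X,
      natDegree_pow, DS_natDegree, add_comm]
  rw [natDegree_add_eq_left_of_natDegree_lt (by rw [h]; exact Nat.lt_succ_of_le (Mx_tail_natDegree C e)), h]

omit [CharZero K] [IsAlgClosed K] in
theorem Mx_sub_isRoot_iff [NeZero (2 : K)] {e : K} {P : Pt} (hP : P ∉ C) :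
    (Mx C - Polynomial.C e * DS (Sx C) ^ 2).IsRoot (xc P) ↔ Xv C P = e := by
  have hx := xc_notMem_Sx C hP
  rw [IsRoot, eval_sub, eval_mul, eval_C, eval_pow, Mx_eval C hx, ← Xv_eq C hP, ← sub_mul,
    mul_eq_zero, or_iff_left (pow_ne_zero _ (DS_eval_ne_zero _ hx)), sub_eq_zero]

omit [CharZero K] [IsAlgClosed K] in
theorem card_le_of_Xv_eq [NeZero (2 : K)] {e : K} (T : Finset K)
    (hT : ∀ x ∈ T, ∃ P : Pt, P ∉ C ∧ xc P = x ∧ Xv C P = e) :
    T.card ≤ 2 * (Sx C).card + 1 := by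
  rw [← Mx_sub_natDegree C e]
  refine card_le_degree_of_subset_roots fun x hx => ?_
  obtain ⟨P, hP, rfl, hXe⟩ := hT x hx
  refine (mem_roots ?_).mpr ((Mx_sub_isRoot_iff C hP).mpr hXe)
  intro h0
  have := Mx_sub_natDegree C e
  rw [h0, natDegree_zero] at this
  omega

include hodd in
/-- Two-torsion points outside `C` lie in different fibres of `X`. -/
theorem two_torsion_Xv_ne {T₁ T₂ : Pt} (h₁ : T₁ ≠ 0) (h₂ : T₂ ≠ 0) (hne : T₁ ≠ T₂)
    (ht₁ : 2 • T₁ = 0) (ht₂ : 2 • T₂ = 0) : Xv C T₁ ≠ Xv C T₂ := by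
  intro he
  have hn₁ : T₁ ∉ C := fun h => h₁ (eq_zero_of_two_nsmul C hodd h ht₁)
  have hn₂ : T₂ ∉ C := fun h => h₂ (eq_zero_of_two_nsmul C hodd h ht₂)
  let im : Pt → Finset K := fun T => Finset.univ.image fun Q : C => xc (T + (Q : Pt))
  have hneg : ∀ T : Pt, 2 • T = 0 → -T = T := fun T h => by
    rw [neg_eq_iff_add_eq_zero, ← two_nsmul, h]
  have hcard : ∀ T : Pt, T ∉ C → 2 • T = 0 → Fintype.card C + 1 ≤ 2 * (im T).card := by
    intro T hT ht
    have hle : Fintype.card C ≤ 2 * (im T).card := by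
      rw [← Finset.card_univ]
      refine Finset.card_le_mul_card_image _ 2 fun x hx => ?_
      obtain ⟨Q₀, -, rfl⟩ := Finset.mem_image.mp hx
      refine (Finset.card_le_card (t := {Q₀, -Q₀}) fun Q hQ => ?_).trans Finset.card_le_two
      rw [Finset.mem_insert, Finset.mem_singleton]
      rcases eq_or_eq_neg_of_xc_eq (ne_zero_of_notMem C (add_mem_coset C hT Q.2))
        (ne_zero_of_notMem C (add_mem_coset C hT Q₀.2)) (Finset.mem_filter.mp hQ).2 with h | h
      · exact Or.inl (Subtype.ext (add_left_cancel h))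
      · refine Or.inr (Subtype.ext ?_)
        rw [neg_add, hneg T ht] at h
        exact add_left_cancel h
    obtain ⟨m, hm⟩ := hodd
    omega
  have hdisj : Disjoint (im T₁) (im T₂) := by
    rw [Finset.disjoint_left]
    intro x hx₁ hx₂
    obtain ⟨Q, -, rfl⟩ := Finset.mem_image.mp hx₁
    obtain ⟨Q', -, hQ'⟩ := Finset.mem_image.mp hx₂
    have hsum : T₁ + T₂ ∈ C := by
      rcases eq_or_eq_neg_of_xc_eq (ne_zero_of_notMem C (add_mem_coset C hn₂ Q'.2))
        (ne_zero_of_notMem C (add_mem_coset C hn₁ Q.2)) hQ' with h | h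
      · have h' : T₁ - T₂ = (Q' : Pt) - Q := by
          rw [sub_eq_sub_iff_add_eq_add, add_comm (Q' : Pt) T₂, h]
        rw [sub_eq_add_neg, hneg T₂ ht₂] at h'
        exact h' ▸ C.sub_mem Q'.2 Q.2
      · have h' : T₁ + T₂ = -((Q : Pt) + Q') := by
          have e : T₁ + T₂ = (T₁ + (Q : Pt)) + (T₂ + (Q' : Pt)) - ((Q : Pt) + Q') := by abel
          rw [e, h, add_neg_cancel, zero_sub]
        exact h' ▸ C.neg_mem (C.add_mem Q.2 Q'.2)
    have h0 := eq_zero_of_two_nsmul C hodd hsum (by rw [nsmul_add, ht₁, ht₂, add_zero])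
    exact hne (by rw [add_eq_zero_iff_eq_neg.mp h0, hneg T₂ ht₂])
  have hle := card_le_of_Xv_eq C (e := Xv C T₁) (im T₁ ∪ im T₂) fun x hx => by
    rcases Finset.mem_union.mp hx with hx | hx
    all_goals obtain ⟨Q, -, rfl⟩ := Finset.mem_image.mp hx
    · exact ⟨_, add_mem_coset C hn₁ Q.2, rfl, Xv_add_mem C Q.2 T₁⟩
    · exact ⟨_, add_mem_coset C hn₂ Q.2, rfl, by rw [Xv_add_mem C Q.2 T₂, he]⟩
  rw [Finset.card_union_of_disjoint hdisj] at hle
  have := two_card_Sx_le C hodd
  have := hcard T₁ hn₁ ht₁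
  have := hcard T₂ hn₂ ht₂
  omega

end Fermat.Agent.Isogeny.Velu
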