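/-
Images of lines: the product of a line function over a coset is affine in `X`, `Y`.
-/
import Fermat.Agent.Isogeny.Velu.Invariant

set_option autoImplicit false

open Polynomial WeierstrassCurve WeierstrassCurve.Affine WeierstrassCurve.Affine.Point

namespace Fermat.Agent.Isogeny.Velu

variable {K : Type*} [Field K] [DecidableEq K] {A B : K}

set_option quotPrecheck false in
local notation "Pt" => (shortW A B).toAffine.Point

variable (C : AddSubgroup (shortW A B).toAffine.Point) [Fintype C]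

/-- Functions on the curve minus `C`, bounded at infinity, with value `c` there. -/
def InB (F : Pt → K) (c : K) : Prop :=
  ∃ α β : K → K, RF (Sx C) (fun x => α x - c) (-1) ∧ RF (Sx C) β (-2) ∧
    ∀ P : Pt, P ∉ C → F P = α (xc P) + yc P * β (xc P)

theorem rf_cubic : RF (Sx C) (fun x => x ^ 3 + A * x + B) 3 :=
  (RF.poly (cubic A B) (d := 3) (fun _ => by rw [cubic_natDegree]; rfl)).congr
    fun x _ => by rw [cubic_eval]

theorem InB.congr {F G : Pt → K} {c : K} (h : InB C F c) (hFG : ∀ P, P ∉ C → G P = F P) :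
    InB C G c := by
  obtain ⟨α, β, hα, hβ, he⟩ := h
  exact ⟨α, β, hα, hβ, fun P hP => by rw [hFG P hP]; exact he P hP⟩

theorem inB_const (c : K) : InB C (fun _ => c) c :=
  ⟨fun _ => c, fun _ => 0, (RF.zero _).congr fun _ _ => sub_self c, RF.zero _, fun P _ => by simp⟩

theorem InB.add {F G : Pt → K} {c d : K} (hF : InB C F c) (hG : InB C G d) :
    InB C (fun P => F P + G P) (c + d) := by
  obtain ⟨α, β, hα, hβ, he⟩ := hF
  obtain ⟨α', β', hα', hβ', he'⟩ := hG
  exact ⟨fun x => α x + α' x, fun x => β x + β' x,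
    (hα.add hα').congr fun x _ => by ring, hβ.add hβ',
    fun P hP => by beta_reduce; rw [he P hP, he' P hP]; ring⟩

theorem InB.mul {F G : Pt → K} {c d : K} (hF : InB C F c) (hG : InB C G d) :
    InB C (fun P => F P * G P) (c * d) := by
  obtain ⟨α, β, hα, hβ, he⟩ := hF
  obtain ⟨α', β', hα', hβ', he'⟩ := hG
  have ha : RF (Sx C) α 0 :=
    ((hα.mono (by norm_num)).add (RF.const c)).congr fun x _ => by ring
  have ha' : RF (Sx C) α' 0 :=
    ((hα'.mono (by norm_num)).add (RF.const d)).congr fun x _ => by ring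
  refine ⟨fun x => α x * α' x + (x ^ 3 + A * x + B) * (β x * β' x),
    fun x => α x * β' x + α' x * β x, ?_, ?_, fun P hP => ?_⟩
  · refine (((RF.mul' hα ha' le_rfl fun _ _ => rfl).add
      (RF.mul' (RF.const c) hα' le_rfl fun _ _ => rfl)).add
      (RF.mul' (rf_cubic C) (hβ.mul hβ') (by norm_num) fun _ _ => rfl)).congr fun x _ => by ring
  · exact (RF.mul' ha hβ' le_rfl fun _ _ => rfl).add (RF.mul' ha' hβ le_rfl fun _ _ => rfl)
  · beta_reduce
    rw [he P hP, he' P hP, ← curve_eq (ne_zero_of_notMem C hP)]; ring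

theorem InB.const_mul {F : Pt → K} {c : K} (e : K) (hF : InB C F c) :
    InB C (fun P => e * F P) (e * c) :=
  (inB_const C e).mul C hF

theorem InB.prod {ι : Type*} (t : Finset ι) {F : ι → Pt → K} {c : ι → K}
    (hF : ∀ i ∈ t, InB C (F i) (c i)) :
    InB C (fun P => ∏ i ∈ t, F i P) (∏ i ∈ t, c i) := by
  classical
  induction t using Finset.induction_on with
  | empty => simpa using inB_const C (1 : K)
  | insert i t hi ih =>
    simp only [Finset.prod_insert hi]
    exact (hF i (Finset.mem_insert_self _ _)).mul C (ih fun j hj => hF j (Finset.mem_insert_of_mem hj))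

theorem inB_xc_translate {Q : Pt} (hQ : Q ∈ C) (h0 : Q ≠ 0) :
    InB C (fun P => xc (P + Q)) (xc Q) := by
  have ha : xc Q ∈ Sx C := xc_mem_Sx C hQ h0
  refine ⟨fun x => xc Q + ((A + 3 * xc Q ^ 2) * x + (B + yc Q ^ 2 - 2 * xc Q ^ 3)) / (x - xc Q) ^ 2,
    fun x => -2 * yc Q / (x - xc Q) ^ 2, ?_, ?_, fun P hP => ?_⟩
  · exact (RF.poly_div ha (Polynomial.C (A + 3 * xc Q ^ 2) * X +
      Polynomial.C (B + yc Q ^ 2 - 2 * xc Q ^ 3)) (m := 1)
      (fun _ => by exact_mod_cast natDegree_linear_le) 2 (by norm_num)).congr fun x _ => by simp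
  · exact (RF.poly_div ha (Polynomial.C (-2 * yc Q)) (m := 0)
      (fun _ => by rw [natDegree_C]; rfl) 2 (by norm_num)).congr fun x _ => by simp
  · have hne := xc_ne_of_notMem C hP hQ h0
    obtain ⟨-, hx, -⟩ := add_coords (ne_zero_of_notMem C hP) h0 hne
    have hz : xc P - xc Q ≠ 0 := sub_ne_zero.mpr hne
    beta_reduce
    rw [hx]
    field_simp
    linear_combination curve_eq (ne_zero_of_notMem C hP)

theorem inB_yc_translate {Q : Pt} (hQ : Q ∈ C) (h0 : Q ≠ 0) :
    InB C (fun P => yc (P + Q)) (yc Q) := by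
  have ha : xc Q ∈ Sx C := xc_mem_Sx C hQ h0
  refine ⟨fun x => yc Q + (2 * yc Q * ((x ^ 3 + A * x + B) - (x - xc Q) ^ 3) +
      yc Q * ((A + 3 * xc Q ^ 2) * x + (B + yc Q ^ 2 - 2 * xc Q ^ 3))) / (x - xc Q) ^ 3,
    fun x => -((A + 3 * xc Q ^ 2) * x + (B + yc Q ^ 2 - 2 * xc Q ^ 3) + 2 * yc Q ^ 2)
      / (x - xc Q) ^ 3, ?_, ?_, fun P hP => ?_⟩
  · exact (RF.poly_div ha (Polynomial.C (6 * yc Q * xc Q) * X ^ 2 +
      Polynomial.C (yc Q * (3 * A - 3 * xc Q ^ 2)) * X +
      Polynomial.C (yc Q * (3 * B + yc Q ^ 2))) (m := 2)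
      (fun _ => by exact_mod_cast natDegree_quadratic_le) 3 (by norm_num)).congr
      fun x _ => by simp; ring
  · exact (RF.poly_div ha (Polynomial.C (-(A + 3 * xc Q ^ 2)) * X +
      Polynomial.C (-(B + yc Q ^ 2 - 2 * xc Q ^ 3 + 2 * yc Q ^ 2))) (m := 1)
      (fun _ => by exact_mod_cast natDegree_linear_le) 3 (by norm_num)).congr
      fun x _ => by simp; ring
  · have hne := xc_ne_of_notMem C hP hQ h0
    obtain ⟨-, hx, hy⟩ := add_coords (ne_zero_of_notMem C hP) h0 hne
    have hz : xc P - xc Q ≠ 0 := sub_ne_zero.mpr hne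
    beta_reduce
    rw [hy, hx]
    field_simp
    linear_combination (3 * yc Q - yc P) * curve_eq (ne_zero_of_notMem C hP)

variable [CharZero K] [IsAlgClosed K] (hΔ : (shortW A B).Δ ≠ 0) (hodd : Odd (Fintype.card C))

include hΔ hodd in
/-- No invariant function `y h(x)` with a simple pole at infinity. -/
theorem eq_zero_of_odd_invariant {h : K → K} (hh : RF (Sx C) h (-1))
    (hinv : ∀ P : Pt, P ∉ C → ∀ Q ∈ C, yc (P + Q) * h (xc (P + Q)) = yc P * h (xc P)) :
    ∀ P : Pt, P ∉ C → yc P * h (xc P) = 0 := by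
  set g : K → K := fun x => (x ^ 3 + A * x + B) * (h x * h x) with hg
  have hgP : ∀ P : Pt, P ∉ C → g (xc P) = (yc P * h (xc P)) ^ 2 := fun P hP => by
    simp only [hg, ← curve_eq (ne_zero_of_notMem C hP)]; ring
  obtain ⟨a, b, hab⟩ := eq_affine_of_invariant C hΔ hodd (f := g)
    (RF.mul' (rf_cubic C) (hh.mul hh) (by norm_num) fun _ _ => rfl) (fun P hP Q hQ => by
      rw [hgP P hP, hgP _ (add_mem_coset C hP hQ), hinv P hP Q hQ])
  have hb : b = 0 := by
    by_contra hb
    obtain ⟨r₁, r₂, r₃, h12, -, -, e₁, e₂, -⟩ := cubic_three_roots hΔ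
    obtain ⟨T₁, hT₁, hx₁, hy₁⟩ := exists_point_of_eq hΔ (x := r₁) (y := 0) (by rw [e₁]; ring)
    obtain ⟨T₂, hT₂, hx₂, hy₂⟩ := exists_point_of_eq hΔ (x := r₂) (y := 0) (by rw [e₂]; ring)
    have ht₁ := two_nsmul_of_yc_eq_zero hT₁ hy₁
    have ht₂ := two_nsmul_of_yc_eq_zero hT₂ hy₂
    have hn₁ : T₁ ∉ C := fun h => hT₁ (eq_zero_of_two_nsmul C hodd h ht₁)
    have hn₂ : T₂ ∉ C := fun h => hT₂ (eq_zero_of_two_nsmul C hodd h ht₂)
    refine two_torsion_Xv_ne C hodd hT₁ hT₂ (fun h => h12 (by rw [← hx₁, ← hx₂, h])) ht₁ ht₂ ?_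
    have k₁ := hab T₁ hn₁
    have k₂ := hab T₂ hn₂
    rw [hgP T₁ hn₁, hy₁] at k₁
    rw [hgP T₂ hn₂, hy₂] at k₂
    exact mul_left_cancel₀ hb (by linear_combination k₂ - k₁)
  obtain ⟨k, N, hN, he⟩ := hh
  have hpoly : cubic A B * N ^ 2 = Polynomial.C a * DS (Sx C) ^ (2 * k) := by
    refine eq_of_eval_eq_off (S := Sx C) fun x hx => ?_
    obtain ⟨P, hP, rfl⟩ := exists_point_notMem C hΔ hx
    have h1 := hab P hP
    rw [hb, zero_mul, add_zero] at h1
    rw [eval_mul, eval_pow, eval_mul, eval_C, eval_pow, cubic_eval, ← he _ hx, ← h1]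
    simp only [hg]; ring
  have hN0 : N = 0 := by
    by_contra hne
    have ha : a ≠ 0 := by
      intro ha
      rw [ha, _root_.map_zero, zero_mul] at hpoly
      exact mul_ne_zero (cubic_monic A B).ne_zero (pow_ne_zero _ hne) hpoly
    have := congrArg natDegree hpoly
    rw [natDegree_mul (cubic_monic A B).ne_zero (pow_ne_zero _ hne), natDegree_C_mul ha,
      natDegree_pow, natDegree_pow, cubic_natDegree, DS_natDegree, mul_assoc] at this
    omega
  intro P hP
  have hx := xc_notMem_Sx C hP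
  have := he _ hx
  rw [hN0, eval_zero] at this
  rw [(mul_eq_zero.mp this).resolve_right (pow_ne_zero _ (DS_eval_ne_zero _ hx)), mul_zero]

/-- The product of `y - l x - m` over the coset of `P`. -/
def lineNorm (l m : K) (P : Pt) : K :=
  ∏ Q : C, (yc (P + (Q : Pt)) - l * xc (P + (Q : Pt)) - m)

omit [CharZero K] [IsAlgClosed K] in
theorem lineNorm_add_mem (l m : K) {R : Pt} (hR : R ∈ C) (P : Pt) :
    lineNorm C l m (P + R) = lineNorm C l m P := by
  refine Fintype.prod_equiv (Equiv.addLeft (⟨R, hR⟩ : C)) _ _ fun Q => ?_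
  simp [add_assoc]

include hΔ hodd in
theorem lineNorm_eq (l m : K) : ∃ a b : K, ∀ P : Pt, P ∉ C → lineNorm C l m P =
    a + b * Xv C P + (∏ Q ∈ C0 C, (yc (Q : Pt) - l * xc (Q : Pt) - m)) * Yv C P := by
  set c := ∏ Q ∈ C0 C, (yc (Q : Pt) - l * xc (Q : Pt) - m) with hc
  obtain ⟨α, β, hα, hβ, hF⟩ :
      InB C (fun P => ∏ Q ∈ C0 C, (yc (P + (Q : Pt)) - l * xc (P + (Q : Pt)) - m)) c := by
    refine InB.prod C (C0 C) fun Q hQ => ?_
    have h0 := (mem_C0 C).mp hQ
    have h := ((inB_yc_translate C Q.2 h0).add C ((inB_xc_translate C Q.2 h0).const_mul C (-l))).add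
      C (inB_const C (-m))
    rw [show yc (Q : Pt) - l * xc (Q : Pt) - m = yc (Q : Pt) + -l * xc (Q : Pt) + -m by ring]
    exact h.congr C fun P _ => by ring
  have ha : RF (Sx C) α 0 :=
    ((hα.mono (by norm_num)).add (RF.const c)).congr fun x _ => by ring
  have hlin : RF (Sx C) (fun x => l * x + m) 1 :=
    ((RF.id'.const_mul l).add ((RF.const m).mono (by norm_num))).congr fun x _ => rfl
  set n0 : K → K := fun x => (x ^ 3 + A * x + B) * β x - (l * x + m) * α x with hn0
  set h : K → K := fun x => α x - (l * x + m) * β x - c * (1 + Rd C x) with hh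
  have hsplit : ∀ P : Pt, P ∉ C →
      lineNorm C l m P = n0 (xc P) + (yc P * h (xc P) + c * Yv C P) := by
    intro P hP
    rw [lineNorm, ← Finset.mul_prod_erase _ _ (Finset.mem_univ (0 : C))]
    simp only [ZeroMemClass.coe_zero, add_zero]
    rw [show ∏ Q ∈ Finset.univ.erase (0 : C), (yc (P + (Q : Pt)) - l * xc (P + (Q : Pt)) - m)
      = α (xc P) + yc P * β (xc P) from hF P hP, Yv_eq C hP]
    simp only [hn0, hh, ← curve_eq (ne_zero_of_notMem C hP)]
    ring
  have hsplit' : ∀ P : Pt, P ∉ C →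
      lineNorm C l m (-P) = n0 (xc P) - (yc P * h (xc P) + c * Yv C P) := by
    intro P hP
    rw [hsplit _ (neg_notMem C hP), xc_neg, yc_neg, Yv_neg C hP]; ring
  have hinvN : ∀ P : Pt, ∀ Q ∈ C, lineNorm C l m (-(P + Q)) = lineNorm C l m (-P) := by
    intro P Q hQ
    rw [neg_add, lineNorm_add_mem C l m (neg_mem hQ)]
  obtain ⟨a, b, hab⟩ := eq_affine_of_invariant C hΔ hodd (f := n0)
    (RF.sub (RF.mul' (rf_cubic C) hβ (by norm_num) fun _ _ => rfl)
      (RF.mul' hlin ha (by norm_num) fun _ _ => rfl)) (fun P hP Q hQ => by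
      have h1 := hsplit P hP
      have h2 := hsplit' P hP
      have h3 := hsplit _ (add_mem_coset C hP hQ)
      have h4 := hsplit' _ (add_mem_coset C hP hQ)
      rw [lineNorm_add_mem C l m hQ, h1] at h3
      rw [hinvN P Q hQ, h2] at h4
      have : (2 : K) * (n0 (xc (P + Q)) - n0 (xc P)) = 0 := by linear_combination -h3 - h4
      exact sub_eq_zero.mp ((mul_eq_zero.mp this).resolve_left two_ne_zero))
  have hodd0 := eq_zero_of_odd_invariant C hΔ hodd (h := h)
    ((RF.sub hα (RF.mul' hlin hβ (by norm_num) fun _ _ => rfl)).sub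
      (RF.const_mul c ((rf_Rd C).mono (by norm_num))) |>.congr fun x _ => by simp only [hh]; ring)
    (fun P hP Q hQ => by
      have h1 := hsplit P hP
      have h2 := hsplit' P hP
      have h3 := hsplit _ (add_mem_coset C hP hQ)
      have h4 := hsplit' _ (add_mem_coset C hP hQ)
      rw [lineNorm_add_mem C l m hQ, h1, Yv_add_mem C hQ] at h3
      rw [hinvN P Q hQ, h2, Yv_add_mem C hQ] at h4
      have : (2 : K) * (yc (P + Q) * h (xc (P + Q)) - yc P * h (xc P)) = 0 := by
        linear_combination h4 - h3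
      exact sub_eq_zero.mp ((mul_eq_zero.mp this).resolve_left two_ne_zero))
  refine ⟨a, b, fun P hP => ?_⟩
  rw [hsplit P hP, hodd0 P hP, hab P hP, zero_add]

end Fermat.Agent.Isogeny.Velu
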