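/-
The quotient map of a short Weierstrass curve by a finite subgroup of odd order.
-/
import Fermat.Agent.Isogeny.Velu.Line

set_option autoImplicit false

open Polynomial WeierstrassCurve WeierstrassCurve.Affine WeierstrassCurve.Affine.Point

namespace Fermat.Agent.Isogeny.Velu

variable {K : Type*} [Field K] [DecidableEq K] {A B : K}

set_option quotPrecheck false in
local notation "Pt" => (shortW A B).toAffine.Point

variable (C : AddSubgroup (shortW A B).toAffine.Point) [Fintype C]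
variable [CharZero K] [IsAlgClosed K] (hΔ : (shortW A B).Δ ≠ 0) (hodd : Odd (Fintype.card C))

include hΔ hodd in
/-- The quotient curve is nonsingular. -/
theorem Δ_quotient_ne_zero : (shortW (Av C) (Bv C)).Δ ≠ 0 := by
  intro h
  rw [shortW_Δ] at h
  have hd : 4 * Av C ^ 3 + 27 * Bv C ^ 2 = 0 :=
    (mul_eq_zero.mp h).resolve_left (by norm_num)
  obtain ⟨e, heA, heB⟩ : ∃ e : K, Av C = -3 * e ^ 2 ∧ Bv C = 2 * e ^ 3 := by
    by_cases hA : Av C = 0
    · rw [hA] at hd ⊢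
      have hB : Bv C = 0 := by
        have : (27 : K) * Bv C ^ 2 = 0 := by linear_combination hd
        exact eq_zero_of_pow_eq_zero ((mul_eq_zero.mp this).resolve_left (by norm_num))
      exact ⟨0, by simp, by simp [hB]⟩
    · refine ⟨-3 * Bv C / (2 * Av C), ?_, ?_⟩
      · field_simp; linear_combination hd
      · field_simp; linear_combination Bv C * hd
  obtain ⟨r₁, r₂, r₃, h12, h13, h23, e₁, e₂, e₃⟩ := cubic_three_roots hΔ
  obtain ⟨T₁, hT₁, hx₁, hy₁⟩ := exists_point_of_eq hΔ (x := r₁) (y := 0) (by rw [e₁]; ring)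
  obtain ⟨T₂, hT₂, hx₂, hy₂⟩ := exists_point_of_eq hΔ (x := r₂) (y := 0) (by rw [e₂]; ring)
  obtain ⟨T₃, hT₃, hx₃, hy₃⟩ := exists_point_of_eq hΔ (x := r₃) (y := 0) (by rw [e₃]; ring)
  have hval : ∀ T : Pt, T ≠ 0 → yc T = 0 → Xv C T = e ∨ Xv C T = -2 * e := by
    intro T hT hy
    have hn : T ∉ C :=
      fun h => hT (eq_zero_of_two_nsmul C hodd h (two_nsmul_of_yc_eq_zero hT hy))
    have he := equation_Xv_Yv C hΔ hodd hn
    rw [Yv_eq C hn, hy, zero_mul, heA, heB] at he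
    have : (Xv C T - e) ^ 2 * (Xv C T + 2 * e) = 0 := by linear_combination -he
    rcases mul_eq_zero.mp this with h | h
    · exact Or.inl (sub_eq_zero.mp (eq_zero_of_pow_eq_zero h))
    · exact Or.inr (by linear_combination h)
  have hne : ∀ {T T' : Pt}, T ≠ 0 → T' ≠ 0 → yc T = 0 → yc T' = 0 → xc T ≠ xc T' →
      Xv C T ≠ Xv C T' := fun hT hT' hy hy' hx =>
    two_torsion_Xv_ne C hodd hT hT' (fun h => hx (congrArg xc h))
      (two_nsmul_of_yc_eq_zero hT hy) (two_nsmul_of_yc_eq_zero hT' hy')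
  have n12 := hne hT₁ hT₂ hy₁ hy₂ (by rw [hx₁, hx₂]; exact h12)
  have n13 := hne hT₁ hT₃ hy₁ hy₃ (by rw [hx₁, hx₃]; exact h13)
  have n23 := hne hT₂ hT₃ hy₂ hy₃ (by rw [hx₂, hx₃]; exact h23)
  rcases hval T₁ hT₁ hy₁ with a | a <;> rcases hval T₂ hT₂ hy₂ with b | b <;>
    rcases hval T₃ hT₃ hy₃ with c | c <;>
    first
    | exact n12 (a.trans b.symm)
    | exact n13 (a.trans c.symm)
    | exact n23 (b.trans c.symm)

omit [IsAlgClosed K] in
/-- The fibre of `X` through a point `P` with `2 P ∉ C`. -/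
theorem mem_of_Xv_eq (hodd' : Odd (Fintype.card C)) {P P' : Pt} (hP : P ∉ C)
    (h2 : 2 • P ∉ C) (hP' : P' ∉ C) (h : Xv C P' = Xv C P) :
    P' - P ∈ C ∨ P' + P ∈ C := by
  set im := Finset.univ.image fun Q : C => xc (P + (Q : Pt)) with him
  have hinj : Function.Injective fun Q : C => xc (P + (Q : Pt)) := by
    intro Q Q' hQ
    rcases eq_or_eq_neg_of_xc_eq (ne_zero_of_notMem C (add_mem_coset C hP Q.2))
      (ne_zero_of_notMem C (add_mem_coset C hP Q'.2)) hQ with h' | h'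
    · exact Subtype.ext (add_left_cancel h')
    · refine absurd ?_ h2
      have e : 2 • P = (P + (Q : Pt)) + (P + (Q' : Pt)) - ((Q : Pt) + Q') := by abel
      rw [e, h', neg_add_cancel, zero_sub]
      exact C.neg_mem (C.add_mem Q.2 Q'.2)
  by_cases hx : xc P' ∈ im
  · obtain ⟨Q, -, hQ⟩ := Finset.mem_image.mp hx
    rcases eq_or_eq_neg_of_xc_eq (ne_zero_of_notMem C hP')
      (ne_zero_of_notMem C (add_mem_coset C hP Q.2)) hQ.symm with h' | h'
    · exact Or.inl (by rw [h', add_sub_cancel_left]; exact Q.2)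
    · refine Or.inr ?_
      rw [h', show -(P + (Q : Pt)) + P = -(Q : Pt) by abel]
      exact C.neg_mem Q.2
  · exfalso
    have hle := card_le_of_Xv_eq C (e := Xv C P) (insert (xc P') im) fun x hx => by
      rcases Finset.mem_insert.mp hx with rfl | hx
      · exact ⟨P', hP', rfl, h⟩
      · obtain ⟨Q, -, rfl⟩ := Finset.mem_image.mp hx
        exact ⟨_, add_mem_coset C hP Q.2, rfl, Xv_add_mem C Q.2 P⟩
    rw [Finset.card_insert_of_notMem hx, him, Finset.card_image_of_injective _ hinj,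
      Finset.card_univ] at hle
    have := two_card_Sx_le C hodd'
    omega

omit [CharZero K] [IsAlgClosed K] in
theorem finite_Xv_eq [NeZero (2 : K)] (e : K) :
    {T : Pt | T ∉ C ∧ Xv C T = e}.Finite := by
  refine (finite_xc_preimage_of_finite
    (s := {x | (Mx C - Polynomial.C e * DS (Sx C) ^ 2).IsRoot x}) ?_).subset
      fun T hT => (Mx_sub_isRoot_iff C hT.1).mpr hT.2
  refine finite_setOfPred_isRoot fun h0 => ?_
  have := Mx_sub_natDegree C e
  rw [h0, natDegree_zero] at this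
  omega

open Classical in
/-- The quotient map. -/
noncomputable def vPoint (P : Pt) : (shortW (Av C) (Bv C)).toAffine.Point :=
  if h : P ∈ C then 0
  else .some (Xv C P) (Yv C P) (nonsingular_short (Δ_quotient_ne_zero C hΔ hodd)
    (equation_Xv_Yv C hΔ hodd h))

theorem vPoint_of_mem {P : Pt} (hP : P ∈ C) : vPoint C hΔ hodd P = 0 := by
  rw [vPoint, dif_pos hP]

theorem vPoint_coords {P : Pt} (hP : P ∉ C) :
    vPoint C hΔ hodd P ≠ 0 ∧ xc (vPoint C hΔ hodd P) = Xv C P ∧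
      yc (vPoint C hΔ hodd P) = Yv C P := by
  rw [vPoint, dif_neg hP]
  exact ⟨fun h => (nomatch h), rfl, rfl⟩

theorem vPoint_eq_zero_iff (P : Pt) : vPoint C hΔ hodd P = 0 ↔ P ∈ C := by
  by_cases hP : P ∈ C
  · simp [vPoint_of_mem C hΔ hodd hP, hP]
  · simp [(vPoint_coords C hΔ hodd hP).1, hP]

theorem vPoint_add_mem {R : Pt} (hR : R ∈ C) (P : Pt) :
    vPoint C hΔ hodd (P + R) = vPoint C hΔ hodd P := by
  by_cases hP : P ∈ C
  · rw [vPoint_of_mem C hΔ hodd hP, vPoint_of_mem C hΔ hodd (C.add_mem hP hR)]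
  · obtain ⟨a, b, c⟩ := vPoint_coords C hΔ hodd hP
    obtain ⟨a', b', c'⟩ := vPoint_coords C hΔ hodd (add_mem_coset C hP hR)
    exact point_eq a' a (by rw [b', b, Xv_add_mem C hR]) (by rw [c', c, Yv_add_mem C hR])

theorem vPoint_neg (P : Pt) : vPoint C hΔ hodd (-P) = -vPoint C hΔ hodd P := by
  by_cases hP : P ∈ C
  · rw [vPoint_of_mem C hΔ hodd hP, vPoint_of_mem C hΔ hodd (C.neg_mem hP), _root_.neg_zero]
  · obtain ⟨a, b, c⟩ := vPoint_coords C hΔ hodd hP
    obtain ⟨a', b', c'⟩ := vPoint_coords C hΔ hodd (neg_notMem C hP)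
    refine point_eq a' (neg_ne_zero.mpr a) ?_ ?_
    · rw [b', xc_neg, b, Xv_neg C hP]
    · rw [c', yc_neg, c, Yv_neg C hP]

theorem vPoint_surjective : Function.Surjective (vPoint C hΔ hodd) := by
  intro T
  by_cases hT : T = 0
  · exact ⟨0, by rw [hT, vPoint_of_mem C hΔ hodd C.zero_mem]⟩
  obtain ⟨a, ha⟩ := IsAlgClosed.exists_root (k := K)
    (Mx C - Polynomial.C (xc T) * DS (Sx C) ^ 2) (fun h0 => by
      have := Mx_sub_natDegree C (xc T)
      have h1 := natDegree_eq_zero_iff_degree_le_zero.mpr h0.le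
      omega)
  have haS : a ∉ Sx C := by
    intro haS
    rw [IsRoot, eval_sub, eval_mul, eval_pow, DS_eval_eq_zero _ haS, zero_pow two_ne_zero,
      mul_zero, sub_zero, Mx, eval_add, eval_mul, eval_pow, DS_eval_eq_zero _ haS,
      zero_pow two_ne_zero, mul_zero, zero_add, eval_finsetSum,
      ← Finset.sum_filter_add_sum_filter_not _ (fun Q : C => xc (Q : Pt) = a)] at ha
    have h0 : ∑ Q ∈ (C0 C).filter (fun Q : C => ¬xc (Q : Pt) = a),
        ((Polynomial.C (tQ (Q : Pt)) * (Polynomial.X - Polynomial.C (xc (Q : Pt))) +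
          Polynomial.C (uQ (Q : Pt))) *
          (∏ b ∈ (Sx C).erase (xc (Q : Pt)), (Polynomial.X - Polynomial.C b)) ^ 2).eval a = 0 := by
      refine Finset.sum_eq_zero fun Q hQ => ?_
      rw [eval_mul, eval_pow, eval_prod, Finset.prod_eq_zero
        (Finset.mem_erase.mpr ⟨fun h => (Finset.mem_filter.mp hQ).2 h.symm, haS⟩) (by simp)]
      simp
    rw [h0, add_zero] at ha
    set r := ∏ b ∈ (Sx C).erase a, (a - b) with hr
    have h1 : ∀ Q ∈ (C0 C).filter (fun Q : C => xc (Q : Pt) = a),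
        ((Polynomial.C (tQ (Q : Pt)) * (Polynomial.X - Polynomial.C (xc (Q : Pt))) +
          Polynomial.C (uQ (Q : Pt))) *
          (∏ b ∈ (Sx C).erase (xc (Q : Pt)), (Polynomial.X - Polynomial.C b)) ^ 2).eval a
          = 2 * (a ^ 3 + A * a + B) * r ^ 2 := by
      intro Q hQ
      obtain rfl := (Finset.mem_filter.mp hQ).2
      simp [uQ, hr, eval_prod]
    rw [Finset.sum_congr rfl h1, Finset.sum_const, nsmul_eq_mul] at ha
    obtain ⟨Q, hQ, hQ0, hQx⟩ := mem_Sx C haS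
    refine mul_ne_zero (Nat.cast_ne_zero.mpr (Finset.card_ne_zero.mpr
      ⟨⟨Q, hQ⟩, Finset.mem_filter.mpr ⟨(mem_C0 C).mpr hQ0, hQx⟩⟩)) (mul_ne_zero (mul_ne_zero
        two_ne_zero ?_) (pow_ne_zero _ ?_)) ha
    · rw [← hQx, ← curve_eq hQ0]
      exact pow_ne_zero _ (yc_ne_zero C hodd hQ hQ0)
    · exact Finset.prod_ne_zero_iff.mpr fun b hb =>
        sub_ne_zero.mpr (Finset.ne_of_mem_erase hb).symm
  obtain ⟨P, hP, rfl⟩ := exists_point_notMem C hΔ haS
  obtain ⟨h₁, h₂, -⟩ := vPoint_coords C hΔ hodd hP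
  rcases eq_or_eq_neg_of_xc_eq hT h₁ (by rw [h₂, (Mx_sub_isRoot_iff C hP).mp ha]) with h | h
  · exact ⟨P, h.symm⟩
  · exact ⟨-P, by rw [vPoint_neg, h]⟩

/-- Additivity at a pair of points in general position. -/
theorem vPoint_add_generic {P T : Pt} (hP : P ∉ C) (hT : T ∉ C) (hS : P + T ∉ C)
    (hx : xc P ≠ xc T) (hXT : Xv C T ≠ Xv C P) (hXS : Xv C (P + T) ≠ Xv C P)
    (h2T : 2 • T ∉ C) (hP2T : P + 2 • T ∉ C) :
    vPoint C hΔ hodd (P + T) = vPoint C hΔ hodd P + vPoint C hΔ hodd T := by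
  have hXTS : Xv C (P + T) ≠ Xv C T := by
    intro h
    rcases mem_of_Xv_eq C hodd hT h2T hS h with h' | h'
    · exact hP (by rwa [add_sub_cancel_right] at h')
    · exact hP2T (by rwa [add_assoc, ← two_nsmul] at h')
  obtain ⟨-, hx3, hy3⟩ := add_coords (ne_zero_of_notMem C hP) (ne_zero_of_notMem C hT) hx
  have hd : xc P - xc T ≠ 0 := sub_ne_zero.mpr hx
  set l := (yc P - yc T) / (xc P - xc T) with hl
  set m := yc P - l * xc P with hm
  have hlT : yc T = l * xc T + m := by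
    rw [hm, hl]; field_simp; ring
  have hlP : yc P = l * xc P + m := by rw [hm]; ring
  have hlS : -yc (P + T) = l * xc (P + T) + m := by rw [hy3, hm]; ring
  have hc : (∏ Q ∈ C0 C, (yc (Q : Pt) - l * xc (Q : Pt) - m)) ≠ 0 := by
    refine Finset.prod_ne_zero_iff.mpr fun Q hQ hz => ?_
    have h0 := (mem_C0 C).mp hQ
    have hyQ : yc (Q : Pt) = l * xc (Q : Pt) + m := by linear_combination hz
    have eP := curve_eq (ne_zero_of_notMem C hP)
    have eT := curve_eq (ne_zero_of_notMem C hT)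
    have eQ := curve_eq h0
    rw [hlP] at eP
    rw [hlT] at eT
    rw [hyQ] at eQ
    set q := xc (Q : Pt)
    have : (q - xc P) * (q - xc T) * (q - xc (P + T)) * (xc P - xc T) = 0 := by
      rw [hx3]
      linear_combination -(xc P - xc T) * eQ + (q - xc T) * eP - (q - xc P) * eT
    have hsame : ∀ R : Pt, R ∉ C → yc R = l * xc R + m → q ≠ xc R := by
      intro R hR hyR hq
      exact hR (point_eq h0 (ne_zero_of_notMem C hR) hq (by rw [hyQ, hyR, hq]) ▸ Q.2)
    simp only [mul_eq_zero, hd, or_false, sub_eq_zero] at this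
    rcases this with (h | h) | h
    · exact hsame P hP hlP h
    · exact hsame T hT hlT h
    · exact hsame (-(P + T)) (neg_notMem C hS) (by rw [yc_neg, xc_neg, hlS]) (by rw [xc_neg, h])
  obtain ⟨a, b, hab⟩ := lineNorm_eq C hΔ hodd l m
  set c := ∏ Q ∈ C0 C, (yc (Q : Pt) - l * xc (Q : Pt) - m)
  have hzero : ∀ R : Pt, yc R = l * xc R + m → lineNorm C l m R = 0 := fun R hR =>
    Finset.prod_eq_zero (Finset.mem_univ (0 : C)) (by simp [hR])
  have kP := hab P hP
  have kT := hab T hT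
  have kS := hab (-(P + T)) (neg_notMem C hS)
  rw [hzero P hlP] at kP
  rw [hzero T hlT] at kT
  rw [hzero (-(P + T)) (by rw [yc_neg, xc_neg, hlS]), Xv_neg C hS, Yv_neg C hS] at kS
  obtain ⟨nP, xP, yP⟩ := vPoint_coords C hΔ hodd hP
  obtain ⟨nT, xT, yT⟩ := vPoint_coords C hΔ hodd hT
  obtain ⟨nS, xS, yS⟩ := vPoint_coords C hΔ hodd hS
  obtain ⟨hn, hX3, hY3⟩ := add_coords nP nT (by rw [xP, xT]; exact hXT.symm)
  rw [xP, xT, yP, yT] at hX3
  rw [xP, xT, yP, yT] at hY3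
  set L := -b / c with hL
  set M := -a / c with hM
  have hYP : Yv C P = L * Xv C P + M := by rw [hL, hM]; field_simp; linear_combination -kP
  have hYT : Yv C T = L * Xv C T + M := by rw [hL, hM]; field_simp; linear_combination -kT
  have hYS : -Yv C (P + T) = L * Xv C (P + T) + M := by
    rw [hL, hM]; field_simp; linear_combination -kS
  have hd' : Xv C P - Xv C T ≠ 0 := sub_ne_zero.mpr hXT.symm
  have hslope : (Yv C P - Yv C T) / (Xv C P - Xv C T) = L := by
    rw [div_eq_iff hd', hYP, hYT]; ring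
  rw [hslope] at hX3 hY3
  have eP := equation_Xv_Yv C hΔ hodd hP
  have eT := equation_Xv_Yv C hΔ hodd hT
  have eS := equation_Xv_Yv C hΔ hodd hS
  rw [hYP] at eP
  rw [hYT] at eT
  rw [← neg_sq, hYS] at eS
  set u := Xv C P
  set v := Xv C T
  set w := Xv C (P + T)
  have : (w - u) * (w - v) * (u - v) * (w - (L ^ 2 - u - v)) = 0 := by
    linear_combination -(u - v) * eS + (w - v) * eP - (w - u) * eT
  have hw : w = L ^ 2 - u - v := sub_eq_zero.mp ((mul_eq_zero.mp this).resolve_left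
    (mul_ne_zero (mul_ne_zero (sub_ne_zero.mpr hXS) (sub_ne_zero.mpr hXTS)) hd'))
  refine point_eq nS hn ?_ ?_
  · rw [xS, hX3]; exact hw
  · rw [yS, hY3, hX3, hYP, ← hw]; linear_combination -hYS

theorem vPoint_add (P R : Pt) :
    vPoint C hΔ hodd (P + R) = vPoint C hΔ hodd P + vPoint C hΔ hodd R := by
  have hCfin : (C : Set Pt).Finite := Set.toFinite _
  have : Infinite Pt := point_infinite hΔ
  have hbad : ∀ P₀ : Pt, ∃ s : Set Pt, s.Finite ∧ ∀ T ∉ s,
      vPoint C hΔ hodd (P₀ + T) = vPoint C hΔ hodd P₀ + vPoint C hΔ hodd T := by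
    intro P₀
    by_cases hP : P₀ ∈ C
    · exact ⟨∅, Set.finite_empty, fun T _ => by
        rw [add_comm P₀ T, vPoint_add_mem C hΔ hodd hP, vPoint_of_mem C hΔ hodd hP, zero_add]⟩
    have hdbl : ∀ {s : Set Pt}, s.Finite → {T : Pt | 2 • T ∈ s}.Finite := by
      intro s hs
      have : {T : Pt | 2 • T ∈ s} = ⋃ c ∈ s, {T : Pt | 2 • T = c} := by
        ext T; simp
      rw [this]
      exact hs.biUnion fun c _ => finite_two_nsmul_eq c
    refine ⟨(C : Set Pt) ∪ {T | P₀ + T ∈ (C : Set Pt)} ∪ {T | xc T = xc P₀} ∪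
      {T | T ∉ C ∧ Xv C T = Xv C P₀} ∪ {T | P₀ + T ∈ {U | U ∉ C ∧ Xv C U = Xv C P₀}} ∪
      {T | 2 • T ∈ (C : Set Pt)} ∪ {T | 2 • T ∈ (fun c => c - P₀) '' (C : Set Pt)}, ?_, ?_⟩
    · exact ((((((hCfin.union (hCfin.preimage (add_right_injective P₀).injOn)).union
        (finite_xc_preimage _)).union (finite_Xv_eq C _)).union
        ((finite_Xv_eq C _).preimage (add_right_injective P₀).injOn)).union (hdbl hCfin)).union
        (hdbl (hCfin.image _)))
    · intro T hT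
      simp only [Set.mem_union, not_or] at hT
      obtain ⟨⟨⟨⟨⟨⟨h1, h2⟩, h3⟩, h4⟩, h5⟩, h6⟩, h7⟩ := hT
      exact vPoint_add_generic C hΔ hodd hP h1 h2 (fun h => h3 h.symm) (fun h => h4 ⟨h1, h⟩)
        (fun h => h5 ⟨h2, h⟩) h6 (fun h => h7 ⟨_, h, add_sub_cancel_left P₀ (2 • T)⟩)
  obtain ⟨s₁, f₁, g₁⟩ := hbad (P + R)
  obtain ⟨s₂, f₂, g₂⟩ := hbad R
  obtain ⟨s₃, f₃, g₃⟩ := hbad P
  obtain ⟨T, hT⟩ := ((f₁.union f₂).union (f₃.preimage (add_right_injective R).injOn)).exists_notMem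
  simp only [Set.mem_union, not_or] at hT
  obtain ⟨⟨h₁, h₂⟩, h₃⟩ := hT
  have e₁ := g₁ T h₁
  rw [add_assoc, g₃ _ h₃, g₂ T h₂, ← add_assoc] at e₁
  exact (add_right_cancel e₁).symm

/-- The quotient homomorphism. -/
noncomputable def vHom : Pt →+ (shortW (Av C) (Bv C)).toAffine.Point :=
  AddMonoidHom.mk' (vPoint C hΔ hodd) (vPoint_add C hΔ hodd)

theorem vHom_ker : (vHom C hΔ hodd).ker = C :=
  AddSubgroup.ext fun P => (vPoint_eq_zero_iff C hΔ hodd P)

end Fermat.Agent.Isogeny.Velu
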